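/-
Program C (S55), package C3, leaf L3b: Hilbert 90 for the units of an unramified cyclic
extension of embedded local fields (`Fermat.Agent.S55.H66.LeafUnitH90`), verbatim.
Prover: helper31.  Mathlib + the C3 spec only.
-/
import Fermat.Agent.S55.H66.LocalSpec

set_option autoImplicit false

noncomputable section

namespace Fermat.Agent.S55.H31

open IntermediateField Fermat.Agent.S55.H66

variable (q : ℕ) [Fact q.Prime]

/-- The norm of an element of an intermediate field is the norm of its image in `Ω`. -/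
theorem nrm_coe {F : Type} [Field F] [Algebra F (PadicAlgCl q)]
    (L : IntermediateField F (PadicAlgCl q)) (x : L) :
    nrm q x = ‖(x : PadicAlgCl q)‖ := rfl

/-- The norm of an element of the base field, seen in an intermediate field. -/
theorem nrm_algebraMap {F : Type} [Field F] [Algebra F (PadicAlgCl q)]
    (L : IntermediateField F (PadicAlgCl q)) (z : F) :
    nrm q (algebraMap F L z) = nrm q z := rfl

theorem nrm_mul {F : Type} [Field F] [Algebra F (PadicAlgCl q)] (x y : F) :
    nrm q (x * y) = nrm q x * nrm q y := by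
  simp [nrm]

theorem nrm_inv {F : Type} [Field F] [Algebra F (PadicAlgCl q)] (x : F) :
    nrm q x⁻¹ = (nrm q x)⁻¹ := by
  simp [nrm]

theorem nrm_eq_zero_iff {F : Type} [Field F] [Algebra F (PadicAlgCl q)] (x : F) :
    nrm q x = 0 ↔ x = 0 := by
  simp [nrm]

/-- Leaf L3b of the C3 spec: Hilbert 90 for units of an unramified cyclic extension. -/
theorem leafUnitH90 : LeafUnitH90 q := by
  intro F _ _ _ _ _ L _ _ hunr σ hσ u hu hN
  have : IsCyclic (L ≃ₐ[F] L) :=
    ⟨σ, fun τ => by
      obtain ⟨k, hk⟩ := Subgroup.mem_zpowers_iff.1 (hσ τ)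
      exact ⟨k, hk⟩⟩
  have hNinv : Algebra.norm F u⁻¹ = 1 := by
    rw [Algebra.norm_inv, hN, inv_one]
  obtain ⟨y, hy⟩ := groupCohomology.exists_div_of_norm_eq_one (K := F) (L := L) hσ hNinv
  have hy0 : (y : L) ≠ 0 := y.ne_zero
  have hσy0 : σ (y : L) ≠ 0 := by
    simp
  have hu0 : u ≠ 0 := by
    intro h
    rw [h, (nrm_eq_zero_iff q (0 : L)).2 rfl] at hu
    exact zero_ne_one hu
  -- `u * y = σ y`
  have huy : u * (y : L) = σ (y : L) := by
    have h1 : (y : L) / σ (y : L) = u⁻¹ := hy
    field_simp at h1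
    rw [mul_comm]
    exact h1
  obtain ⟨z, hz⟩ := hunr (y : L)
  have hz0 : z ≠ 0 := by
    intro h
    rw [h, (nrm_eq_zero_iff q (0 : F)).2 rfl, nrm_eq_zero_iff] at hz
    exact hy0 hz
  have hnz : nrm q z ≠ 0 := fun h => hz0 ((nrm_eq_zero_iff q z).1 h)
  refine ⟨(y : L) * (algebraMap F L z)⁻¹, ?_, ?_⟩
  · rw [nrm_mul, nrm_inv, nrm_algebraMap, hz]
    exact mul_inv_cancel₀ hnz
  · rw [map_mul, map_inv₀, AlgEquiv.commutes, ← mul_assoc, huy]
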