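/-
Program C (S55), package C3: the residue field of `Ω = PadicAlgCl q` and reduction facts used by
the unramified leaves (helper31).  Mathlib + the C3 defs only.
-/
import Fermat.Agent.S55.H66.LocalSpec

set_option autoImplicit false

noncomputable section

namespace Fermat.Agent.S55.H31

open IntermediateField Fermat.Agent.S55.H66 Polynomial

variable (q : ℕ) [Fact q.Prime]

/-- The valuation ring of `Ω`. -/
abbrev OΩ : ValuationSubring (PadicAlgCl q) :=
  (Valued.v : Valuation (PadicAlgCl q) NNReal).valuationSubring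

theorem mem_OΩ_iff {x : PadicAlgCl q} : x ∈ OΩ q ↔ ‖x‖ ≤ 1 := by
  show ‖x‖₊ ≤ 1 ↔ ‖x‖ ≤ 1
  rw [← NNReal.coe_le_coe]
  rfl

/-- The residue field of `Ω`. -/
abbrev kΩ : Type := IsLocalRing.ResidueField (OΩ q)

/-- Reduction `𝒪_Ω → k_Ω`. -/
def red : OΩ q →+* kΩ q := IsLocalRing.residue (OΩ q)

theorem isUnit_OΩ_iff (x : OΩ q) : IsUnit x ↔ ‖(x : PadicAlgCl q)‖ = 1 := by
  have h1 : ‖(x : PadicAlgCl q)‖ ≤ 1 := (mem_OΩ_iff q).1 x.2
  constructor
  · rintro ⟨u, rfl⟩
    have h2 : ‖((u⁻¹ : (OΩ q)ˣ) : OΩ q).1‖ ≤ 1 := (mem_OΩ_iff q).1 (Subtype.prop _)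
    have h3 : ((u : OΩ q) : PadicAlgCl q) * (((u⁻¹ : (OΩ q)ˣ) : OΩ q) : PadicAlgCl q) = 1 :=
      congrArg (fun y : OΩ q => (y : PadicAlgCl q)) u.mul_inv
    have h4 := congrArg norm h3
    rw [norm_mul, norm_one] at h4
    nlinarith [norm_nonneg ((u : OΩ q) : PadicAlgCl q),
      norm_nonneg (((u⁻¹ : (OΩ q)ˣ) : OΩ q) : PadicAlgCl q)]
  · intro h
    have hx0 : (x : PadicAlgCl q) ≠ 0 := by
      intro h0; rw [h0, norm_zero] at h; exact zero_ne_one h
    have hinv : (x : PadicAlgCl q)⁻¹ ∈ OΩ q := by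
      rw [mem_OΩ_iff, norm_inv, h, inv_one]
    exact IsUnit.of_mul_eq_one ⟨(x : PadicAlgCl q)⁻¹, hinv⟩ (Subtype.ext (mul_inv_cancel₀ hx0))

theorem red_eq_zero_iff (x : OΩ q) : red q x = 0 ↔ ‖(x : PadicAlgCl q)‖ < 1 := by
  have h1 : ‖(x : PadicAlgCl q)‖ ≤ 1 := (mem_OΩ_iff q).1 x.2
  rw [red, IsLocalRing.residue_eq_zero_iff, IsLocalRing.mem_maximalIdeal, mem_nonunits_iff,
    isUnit_OΩ_iff]
  exact ⟨fun h => lt_of_le_of_ne h1 h, fun h => ne_of_lt h⟩

theorem red_eq_red_iff (x y : OΩ q) :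
    red q x = red q y ↔ ‖(x : PadicAlgCl q) - (y : PadicAlgCl q)‖ < 1 := by
  rw [← sub_eq_zero, ← map_sub, red_eq_zero_iff]
  rfl

theorem norm_natCast_Ω (m : ℕ) : ‖(m : PadicAlgCl q)‖ = ‖(m : ℚ_[q])‖ := by
  have := PadicAlgCl.norm_extends q (m : ℚ_[q])
  rwa [map_natCast] at this

theorem norm_natCast_Ω_eq_one {m : ℕ} (h : q.Coprime m) : ‖(m : PadicAlgCl q)‖ = 1 := by
  rw [norm_natCast_Ω]
  exact Padic.norm_natCast_eq_one_iff.2 h

theorem norm_prime_Ω_lt_one : ‖(q : PadicAlgCl q)‖ < 1 := by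
  rw [norm_natCast_Ω]
  exact Padic.norm_natCast_lt_one_iff.2 dvd_rfl

instance charP_kΩ : CharP (kΩ q) q := by
  refine (CharP.charP_iff_prime_eq_zero (Fact.out : q.Prime)).2 ?_
  have h : red q (q : OΩ q) = 0 := by
    rw [red_eq_zero_iff]
    simpa using norm_prime_Ω_lt_one q
  simpa using h

section Embedded

variable (F : Type) [Field F] [Algebra F (PadicAlgCl q)]

theorem mem_intRing_iff {x : F} : x ∈ intRing q F ↔ nrm q x ≤ 1 := by
  show algebraMap F (PadicAlgCl q) x ∈ OΩ q ↔ _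
  rw [mem_OΩ_iff]
  rfl

/-- The inclusion `𝒪_F → 𝒪_Ω`. -/
def incl : intRing q F →+* OΩ q :=
  ((algebraMap F (PadicAlgCl q)).comp (intRing q F).subtype).codRestrict (OΩ q)
    (fun x => x.2)

@[simp] theorem incl_coe (x : intRing q F) :
    ((incl q F x : OΩ q) : PadicAlgCl q) = algebraMap F (PadicAlgCl q) (x : F) := rfl

/-- Reduction `𝒪_F → k_Ω`. -/
def psi : intRing q F →+* kΩ q := (red q).comp (incl q F)

theorem isUnit_intRing_iff (x : intRing q F) : IsUnit x ↔ nrm q (x : F) = 1 := by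
  have h1 : nrm q (x : F) ≤ 1 := (mem_intRing_iff q F).1 x.2
  constructor
  · rintro ⟨u, rfl⟩
    have h2 : nrm q (((u⁻¹ : (intRing q F)ˣ) : intRing q F) : F) ≤ 1 :=
      (mem_intRing_iff q F).1 (Subtype.prop _)
    have h3 : ((u : intRing q F) : F) * (((u⁻¹ : (intRing q F)ˣ) : intRing q F) : F) = 1 :=
      congrArg (fun y : intRing q F => (y : F)) u.mul_inv
    have h4 := congrArg (nrm q) h3
    simp only [nrm, map_mul, norm_mul, map_one, norm_one] at h4 h1 h2 ⊢
    nlinarith [norm_nonneg (algebraMap F (PadicAlgCl q) ((u : intRing q F) : F)),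
      norm_nonneg (algebraMap F (PadicAlgCl q) (((u⁻¹ : (intRing q F)ˣ) : intRing q F) : F))]
  · intro h
    have hx0 : (x : F) ≠ 0 := by
      intro h0
      rw [h0] at h
      simp [nrm] at h
    have hinv : (x : F)⁻¹ ∈ intRing q F := by
      rw [mem_intRing_iff]
      simp only [nrm, map_inv₀, norm_inv] at h ⊢
      rw [h, inv_one]
    exact IsUnit.of_mul_eq_one ⟨(x : F)⁻¹, hinv⟩ (Subtype.ext (mul_inv_cancel₀ hx0))

theorem nrm_lt_one_of_not_isUnit {x : intRing q F} (hx : ¬ IsUnit x) : nrm q (x : F) < 1 := by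
  have h1 : nrm q (x : F) ≤ 1 := (mem_intRing_iff q F).1 x.2
  exact lt_of_le_of_ne h1 fun h => hx ((isUnit_intRing_iff q F x).2 h)

theorem psi_eq_zero_of_mem_maximalIdeal {x : intRing q F}
    (hx : x ∈ IsLocalRing.maximalIdeal (intRing q F)) : psi q F x = 0 := by
  rw [IsLocalRing.mem_maximalIdeal, mem_nonunits_iff] at hx
  show red q (incl q F x) = 0
  rw [red_eq_zero_iff]
  exact nrm_lt_one_of_not_isUnit q F hx

variable [Finite (IsLocalRing.ResidueField (intRing q F))]

/-- Fermat's little theorem for the residue field of `F`, read in `k_Ω`. -/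
theorem psi_pow_resCard (a : intRing q F) : psi q F a ^ resCard q F = psi q F a := by
  classical
  let _ : Fintype (IsLocalRing.ResidueField (intRing q F)) := Fintype.ofFinite _
  have h1 : IsLocalRing.residue (intRing q F) a ^ resCard q F =
      IsLocalRing.residue (intRing q F) a := by
    rw [resCard, Nat.card_eq_fintype_card]
    exact FiniteField.pow_card _
  have h2 : a ^ resCard q F - a ∈ IsLocalRing.maximalIdeal (intRing q F) := by
    rw [← IsLocalRing.residue_eq_zero_iff, map_sub, map_pow, h1, sub_self]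
  have h3 := psi_eq_zero_of_mem_maximalIdeal q F h2
  rw [map_sub, map_pow, sub_eq_zero] at h3
  exact h3

omit [Finite (IsLocalRing.ResidueField (intRing q F))] in
theorem charP_residueField : CharP (IsLocalRing.ResidueField (intRing q F)) q := by
  refine (CharP.charP_iff_prime_eq_zero (Fact.out : q.Prime)).2 ?_
  have h : IsLocalRing.residue (intRing q F) (q : intRing q F) = 0 := by
    rw [IsLocalRing.residue_eq_zero_iff, IsLocalRing.mem_maximalIdeal, mem_nonunits_iff,
      isUnit_intRing_iff]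
    have h1 : nrm q (((q : intRing q F) : intRing q F) : F) = ‖(q : PadicAlgCl q)‖ := by
      simp [nrm]
    rw [h1]
    exact ne_of_lt (norm_prime_Ω_lt_one q)
  simpa using h

/-- The residue cardinality is a positive power of `q`. -/
theorem exists_resCard_eq : ∃ r : ℕ, 0 < r ∧ resCard q F = q ^ r := by
  classical
  let _ : Fintype (IsLocalRing.ResidueField (intRing q F)) := Fintype.ofFinite _
  have := charP_residueField q F
  obtain ⟨r, -, hr⟩ := FiniteField.card (IsLocalRing.ResidueField (intRing q F)) q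
  exact ⟨r, r.pos, by rw [resCard, Nat.card_eq_fintype_card, hr]⟩

/-- `x ↦ x ^ Q` fixes the image of `𝒪_F` in `k_Ω` and is a ring endomorphism of `k_Ω`. -/
theorem exists_frob : ∃ fr : kΩ q →+* kΩ q, (∀ x, fr x = x ^ resCard q F) ∧
    fr.comp (psi q F) = psi q F := by
  obtain ⟨r, -, hr⟩ := exists_resCard_eq q F
  refine ⟨iterateFrobenius (kΩ q) q r, fun x => by rw [iterateFrobenius_def, hr], ?_⟩
  ext a
  rw [RingHom.comp_apply, iterateFrobenius_def, ← hr, psi_pow_resCard]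

end Embedded

end Fermat.Agent.S55.H31
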