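/-
Program C (S55), package C3: Galois structure of the unramified extension
`unramExt q F n = F(μ_{Q^n - 1})` (given its degree and normality): reduction is injective on
roots of unity of order prime to `q`, existence of the Frobenius `ζ ↦ ζ ^ Q`, and the Galois
group is `{φ ^ j : j < n}` (helper31).  Mathlib + the C3 defs only.
-/
import Fermat.Agent.S55.H31.ResOmega

set_option autoImplicit false

noncomputable section

namespace Fermat.Agent.S55.H31

open IntermediateField Fermat.Agent.S55.H66 Polynomial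

variable (q : ℕ) [Fact q.Prime]

/-! ### Roots of unity of order prime to `q` -/

theorem norm_eq_one_of_pow_eq_one' {N : ℕ} (hN : N ≠ 0) {x : PadicAlgCl q} (hx : x ^ N = 1) :
    ‖x‖ = 1 := by
  have h := congrArg norm hx
  rw [norm_pow, norm_one] at h
  exact (pow_eq_one_iff_of_nonneg (norm_nonneg x) hN).1 h

/-- Reduction is injective on the `N`-th roots of unity when `q ∤ N`. -/
theorem eq_of_red_eq {N : ℕ} (hN : q.Coprime N) {x y : OΩ q} (hx : x ^ N = 1) (hy : y ^ N = 1)
    (h : red q x = red q y) : x = y := by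
  have hq : q.Prime := Fact.out
  have hN0 : N ≠ 0 := by
    rintro rfl
    rw [Nat.coprime_zero_right] at hN
    exact hq.one_lt.ne' hN
  obtain ⟨M, rfl⟩ : ∃ M, N = M + 1 := Nat.exists_eq_succ_of_ne_zero hN0
  by_contra hne
  set w : OΩ q := x * y ^ M with hw
  have hyy : y ^ M * y = 1 := by rw [← pow_succ, hy]
  have hw1 : w ≠ 1 := by
    intro h1
    apply hne
    calc x = x * (y ^ M * y) := by rw [hyy, mul_one]
      _ = w * y := by rw [hw, mul_assoc]
      _ = y := by rw [h1, one_mul]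
  have hwN : w ^ (M + 1) = 1 := by
    rw [hw, mul_pow, hx, one_mul, ← pow_mul, mul_comm, pow_mul, hy, one_pow]
  have hredw : red q w = 1 := by
    rw [hw, map_mul, map_pow, h, ← pow_succ', ← map_pow, hy, map_one]
  have hgeom : (∑ i ∈ Finset.range (M + 1), w ^ i) * (w - 1) = 0 := by
    rw [geom_sum_mul, hwN, sub_self]
  have hsum : ∑ i ∈ Finset.range (M + 1), w ^ i = 0 := by
    rcases mul_eq_zero.1 hgeom with h0 | h0
    · exact h0
    · exact absurd (sub_eq_zero.1 h0) hw1
  have hcast : ((M + 1 : ℕ) : kΩ q) = 0 := by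
    have := congrArg (red q) hsum
    rw [map_sum, map_zero] at this
    simpa [hredw] using this
  have hdvd : q ∣ M + 1 := (CharP.cast_eq_zero_iff (kΩ q) q (M + 1)).1 hcast
  exact (hq.coprime_iff_not_dvd.1 hN) hdvd

theorem norm_sub_eq_one {N : ℕ} (hN : q.Coprime N) {x y : PadicAlgCl q} (hx : x ^ N = 1)
    (hy : y ^ N = 1) (hxy : x ≠ y) : ‖x - y‖ = 1 := by
  have hq : q.Prime := Fact.out
  have hN0 : N ≠ 0 := by
    rintro rfl
    rw [Nat.coprime_zero_right] at hN
    exact hq.one_lt.ne' hN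
  have hx1 := norm_eq_one_of_pow_eq_one' q hN0 hx
  have hy1 := norm_eq_one_of_pow_eq_one' q hN0 hy
  let X : OΩ q := ⟨x, (mem_OΩ_iff q).2 hx1.le⟩
  let Y : OΩ q := ⟨y, (mem_OΩ_iff q).2 hy1.le⟩
  have hle : ‖x - y‖ ≤ 1 := (mem_OΩ_iff q).1 (X - Y).2
  refine le_antisymm hle (not_lt.1 fun hlt => hxy ?_)
  have hred : red q X = red q Y := (red_eq_red_iff q X Y).2 hlt
  have hXY : X = Y := eq_of_red_eq q hN (Subtype.ext hx) (Subtype.ext hy) hred
  exact congrArg Subtype.val hXY

section Unram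

variable (F : Type) [Field F] [Algebra F (PadicAlgCl q)]
  [Finite (IsLocalRing.ResidueField (intRing q F))]

theorem two_le_resCard : 2 ≤ resCard q F := by
  obtain ⟨r, hr, h⟩ := exists_resCard_eq q F
  rw [h]
  calc 2 ≤ q := (Fact.out : q.Prime).two_le
    _ = q ^ 1 := (pow_one q).symm
    _ ≤ q ^ r := Nat.pow_le_pow_right (Fact.out : q.Prime).pos hr

/-- The order `Q ^ n - 1` of the roots of unity generating the unramified extension. -/
def NN (n : ℕ) : ℕ := resCard q F ^ n - 1

theorem NN_add_one (n : ℕ) : NN q F n + 1 = resCard q F ^ n := by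
  have : 1 ≤ resCard q F ^ n := Nat.one_le_pow _ _ (by have := two_le_resCard q F; omega)
  unfold NN
  omega

theorem NN_pos {n : ℕ} (hn : 0 < n) : 0 < NN q F n := by
  have h2 := two_le_resCard q F
  have : resCard q F ^ 1 ≤ resCard q F ^ n := Nat.pow_le_pow_right (by omega) hn
  have h3 := NN_add_one q F n
  rw [pow_one] at this
  omega

theorem coprime_NN {n : ℕ} (hn : 0 < n) : q.Coprime (NN q F n) := by
  have hq : q.Prime := Fact.out
  rw [hq.coprime_iff_not_dvd]
  intro hdvd
  obtain ⟨r, hr, h⟩ := exists_resCard_eq q F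
  have h1 : q ∣ resCard q F ^ n := by
    rw [h, ← pow_mul]
    exact dvd_pow_self q (Nat.mul_ne_zero hr.ne' hn.ne')
  rw [← NN_add_one q F n] at h1
  have h2 : q ∣ 1 := (Nat.dvd_add_right hdvd).1 h1
  exact hq.one_lt.ne' (Nat.dvd_one.1 h2)

theorem exists_primitiveRoot_NN {n : ℕ} (hn : 0 < n) :
    ∃ ζ : PadicAlgCl q, IsPrimitiveRoot ζ (NN q F n) := by
  have : NeZero (NN q F n) := ⟨(NN_pos q F hn).ne'⟩
  exact HasEnoughRootsOfUnity.exists_primitiveRoot (PadicAlgCl q) (NN q F n)

omit [Finite (IsLocalRing.ResidueField (intRing q F))] in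
theorem mem_unramExt {n : ℕ} {x : PadicAlgCl q} (hx : x ^ NN q F n = 1) :
    x ∈ unramExt q F n :=
  subset_adjoin F _ hx

/-- The key congruence: `ζ ^ Q` is a conjugate of `ζ` over `F`, for `ζ` a root of unity of
order prime to `q`. -/
theorem aeval_pow_resCard_minpoly {N : ℕ} (hN : q.Coprime N) {ζ : PadicAlgCl q}
    (hζ : ζ ^ N = 1) : aeval (ζ ^ resCard q F) (minpoly F ζ) = 0 := by
  have hq : q.Prime := Fact.out
  have hN0 : N ≠ 0 := by
    rintro rfl
    rw [Nat.coprime_zero_right] at hN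
    exact hq.one_lt.ne' hN
  have hint : IsIntegral (intRing q F) ζ :=
    ⟨X ^ N - 1, monic_X_pow_sub_C 1 hN0, by simp [hζ]⟩
  have hintF : IsIntegral F ζ := hint.tower_top
  have hmin : minpoly F ζ = (minpoly (intRing q F) ζ).map (algebraMap (intRing q F) F) :=
    minpoly.isIntegrallyClosed_eq_field_fractions' F hint
  set h₀ := minpoly (intRing q F) ζ with hh₀
  have hζ1 := norm_eq_one_of_pow_eq_one' q hN0 hζ
  let Z : OΩ q := ⟨ζ, (mem_OΩ_iff q).2 hζ1.le⟩
  have e1 : ∀ W : OΩ q, ((h₀.eval₂ (incl q F) W : OΩ q) : PadicAlgCl q) =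
      aeval (W : PadicAlgCl q) h₀ := fun W => by
    have := Polynomial.hom_eval₂ h₀ (incl q F) (OΩ q).subtype W
    rw [aeval_def]
    exact this
  have e2 : h₀.eval₂ (incl q F) Z = 0 := Subtype.ext (by
    rw [e1]
    exact minpoly.aeval _ _)
  have e3 : h₀.eval₂ (psi q F) (red q Z) = 0 := by
    have := Polynomial.hom_eval₂ h₀ (incl q F) (red q) Z
    rw [e2, map_zero] at this
    exact this.symm
  obtain ⟨fr, hfr, hfrpsi⟩ := exists_frob q F
  have e4 : h₀.eval₂ (psi q F) (red q (Z ^ resCard q F)) = 0 := by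
    have := Polynomial.hom_eval₂ h₀ (psi q F) fr (red q Z)
    rw [e3, map_zero, hfrpsi, hfr, ← map_pow] at this
    exact this.symm
  have e5 : red q (h₀.eval₂ (incl q F) (Z ^ resCard q F)) = 0 := by
    rw [Polynomial.hom_eval₂]
    exact e4
  have e6 : ‖aeval (ζ ^ resCard q F) h₀‖ < 1 := by
    have := (red_eq_zero_iff q _).1 e5
    rwa [e1] at this
  have hsplit : ((minpoly F ζ).map (algebraMap F (PadicAlgCl q))).Splits := IsAlgClosed.splits _
  have hprod := hsplit.aeval_eq_prod_aroots_of_monic (minpoly.monic hintF) (ζ ^ resCard q F)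
  by_contra hne
  have hroots : ∀ r ∈ (minpoly F ζ).aroots (PadicAlgCl q), r ^ N = 1 := fun r hr => by
    have hr' : aeval r (minpoly F ζ) = 0 := (mem_aroots.1 hr).2
    have hdvd : minpoly F ζ ∣ X ^ N - 1 := minpoly.dvd F ζ (by simp [hζ])
    obtain ⟨c, hc⟩ := hdvd
    have := congrArg (aeval r) hc
    simp only [map_sub, map_pow, aeval_X, map_one, map_mul, hr', zero_mul] at this
    exact sub_eq_zero.1 this
  have hnorm : ‖aeval (ζ ^ resCard q F) (minpoly F ζ)‖ = 1 := by
    rw [hprod, ← normHom_apply, map_multiset_prod, Multiset.map_map]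
    refine Multiset.prod_eq_one fun t ht => ?_
    obtain ⟨r, hr, rfl⟩ := Multiset.mem_map.1 ht
    have hr1 := hroots r hr
    have hne' : ζ ^ resCard q F ≠ r := by
      rintro rfl
      exact hne (mem_aroots.1 hr).2
    have hζQ : (ζ ^ resCard q F) ^ N = 1 := by rw [← pow_mul, mul_comm, pow_mul, hζ, one_pow]
    exact norm_sub_eq_one q hN hζQ hr1 hne'
  rw [hmin, aeval_map_algebraMap] at hnorm
  linarith

variable {n : ℕ} [IsGalois F (unramExt q F n)]

/-- The Frobenius of the unramified extension. -/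
theorem exists_frobenius (hn : 0 < n) {ζ : PadicAlgCl q} (hζ : ζ ^ NN q F n = 1) :
    ∃ φ : unramExt q F n ≃ₐ[F] unramExt q F n, ∀ j : ℕ,
      (((φ ^ j) ⟨ζ, mem_unramExt q F hζ⟩ : unramExt q F n) : PadicAlgCl q) =
        ζ ^ (resCard q F ^ j) := by
  set ζE : unramExt q F n := ⟨ζ, mem_unramExt q F hζ⟩ with hζE
  have h0 := aeval_pow_resCard_minpoly q F (coprime_NN q F hn) hζ
  have h1 : aeval (ζE ^ resCard q F) (minpoly F ζE) = 0 := by
    have hm : minpoly F ζ = minpoly F ζE :=
      minpoly.algebraMap_eq (algebraMap (unramExt q F n) (PadicAlgCl q)).injective ζE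
    rw [hm] at h0
    have h2 : aeval ((ζE ^ resCard q F : unramExt q F n) : PadicAlgCl q) (minpoly F ζE) = 0 := h0
    have h2' : algebraMap (unramExt q F n) (PadicAlgCl q)
        (aeval (ζE ^ resCard q F) (minpoly F ζE)) = 0 := by
      rw [← aeval_algebraMap_apply]
      exact h2
    exact (map_eq_zero _).1 h2'
  obtain ⟨φ, hφ⟩ := minpoly.exists_algEquiv_of_root'
    (Algebra.IsAlgebraic.isAlgebraic (R := F) ζE) h1
  refine ⟨φ, fun j => ?_⟩
  have key : ∀ j : ℕ, (φ ^ j) ζE = ζE ^ (resCard q F ^ j) := by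
    intro j
    induction j with
    | zero => simp
    | succ j ih =>
      rw [pow_succ', AlgEquiv.mul_apply, ih, map_pow, hφ, ← pow_mul, ← pow_succ']
  rw [key j]
  rfl

end Unram

end Fermat.Agent.S55.H31
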