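/-
Program C (S55), package C3: norm and trace in the unramified extension `unramExt q F n`
through the Frobenius, automorphisms are isometries (helper31).
-/
import Fermat.Agent.S55.H31.UnramGal

set_option autoImplicit false

noncomputable section

namespace Fermat.Agent.S55.H31

open IntermediateField Fermat.Agent.S55.H66 Polynomial

variable (q : ℕ) [Fact q.Prime]

section Isom

variable (F : Type) [Field F] [Algebra ℚ_[q] F] [Algebra F (PadicAlgCl q)]
  [IsScalarTower ℚ_[q] F (PadicAlgCl q)]

/-- `F`-automorphisms of an intermediate field are isometries. -/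
theorem norm_algEquiv (L : IntermediateField F (PadicAlgCl q)) (σ : L ≃ₐ[F] L) (x : L) :
    ‖((σ x : L) : PadicAlgCl q)‖ = ‖(x : PadicAlgCl q)‖ := by
  have hinj : Function.Injective (algebraMap L (PadicAlgCl q)) :=
    (algebraMap L (PadicAlgCl q)).injective
  have h1 : minpoly ℚ_[q] ((σ x : L) : PadicAlgCl q) = minpoly ℚ_[q] (x : PadicAlgCl q) := by
    calc minpoly ℚ_[q] (algebraMap L (PadicAlgCl q) (σ x)) = minpoly ℚ_[q] (σ x) :=
          minpoly.algebraMap_eq hinj _
      _ = minpoly ℚ_[q] ((σ.restrictScalars ℚ_[q]) x) := rfl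
      _ = minpoly ℚ_[q] x := minpoly.algEquiv_eq _ x
      _ = minpoly ℚ_[q] (algebraMap L (PadicAlgCl q) x) := (minpoly.algebraMap_eq hinj x).symm
  rw [← PadicAlgCl.spectralNorm_eq, ← PadicAlgCl.spectralNorm_eq]
  unfold spectralNorm
  rw [h1]

end Isom

section Unram

variable (F : Type) [Field F] [Algebra F (PadicAlgCl q)]
  [Finite (IsLocalRing.ResidueField (intRing q F))]
variable {n : ℕ}

/-- The exponents `Q ^ j`, `j < n`, give distinct powers of a primitive `(Q ^ n - 1)`-th root. -/
theorem pow_resCard_pow_inj {ζ : PadicAlgCl q} (hζ : IsPrimitiveRoot ζ (NN q F n))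
    {i j : ℕ} (hi : i < n) (hj : j < n)
    (h : ζ ^ (resCard q F ^ i) = ζ ^ (resCard q F ^ j)) : i = j := by
  have h2 := two_le_resCard q F
  rcases Nat.lt_or_ge n 2 with hn | hn
  · omega
  · have hlt : ∀ k, k < n → resCard q F ^ k < NN q F n := by
      intro k hk
      have h3 : resCard q F ^ k ≤ resCard q F ^ (n - 1) :=
        Nat.pow_le_pow_right (by omega) (by omega)
      have h4 : resCard q F ^ n = resCard q F * resCard q F ^ (n - 1) := by
        rw [← pow_succ']
        congr 1
        omega
      have h5 : resCard q F ^ 1 ≤ resCard q F ^ (n - 1) :=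
        Nat.pow_le_pow_right (by omega) (by omega)
      rw [pow_one] at h5
      have h6 := NN_add_one q F n
      have h7 : 2 * resCard q F ^ (n - 1) ≤ resCard q F * resCard q F ^ (n - 1) :=
        Nat.mul_le_mul_right _ h2
      omega
    have := hζ.pow_inj (hlt i hi) (hlt j hj) h
    exact Nat.pow_right_injective h2 this

variable [FiniteDimensional F (unramExt q F n)] [IsGalois F (unramExt q F n)]

/-- The Galois group of the unramified extension is `{φ ^ j : j < n}`. -/
theorem frob_bijective (hdeg : Module.finrank F (unramExt q F n) = n)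
    {ζ : PadicAlgCl q} (hζ : IsPrimitiveRoot ζ (NN q F n))
    (φ : unramExt q F n ≃ₐ[F] unramExt q F n)
    (hφ : ∀ j : ℕ, (((φ ^ j) ⟨ζ, mem_unramExt q F hζ.pow_eq_one⟩ : unramExt q F n) :
      PadicAlgCl q) = ζ ^ (resCard q F ^ j)) :
    Function.Bijective (fun j : Fin n => φ ^ (j : ℕ)) := by
  have hinj : Function.Injective (fun j : Fin n => φ ^ (j : ℕ)) := by
    intro i j hij
    have h1 : ζ ^ (resCard q F ^ (i : ℕ)) = ζ ^ (resCard q F ^ (j : ℕ)) := by
      rw [← hφ, ← hφ]
      exact congrArg (fun σ : unramExt q F n ≃ₐ[F] unramExt q F n =>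
        ((σ ⟨ζ, mem_unramExt q F hζ.pow_eq_one⟩ : unramExt q F n) : PadicAlgCl q)) hij
    exact Fin.ext (pow_resCard_pow_inj q F hζ i.2 j.2 h1)
  refine hinj.bijective_of_nat_card_le ?_
  rw [IsGalois.card_aut_eq_finrank, hdeg, Nat.card_eq_fintype_card, Fintype.card_fin]

omit [Finite (IsLocalRing.ResidueField (intRing q F))] in
theorem coe_norm_eq {φ : unramExt q F n ≃ₐ[F] unramExt q F n}
    (hbij : Function.Bijective (fun j : Fin n => φ ^ (j : ℕ))) (x : unramExt q F n) :
    algebraMap F (PadicAlgCl q) (Algebra.norm F x) =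
      ∏ j : Fin n, (((φ ^ (j : ℕ)) x : unramExt q F n) : PadicAlgCl q) := by
  have h1 : algebraMap F (PadicAlgCl q) (Algebra.norm F x) =
      algebraMap (unramExt q F n) (PadicAlgCl q)
        (algebraMap F (unramExt q F n) (Algebra.norm F x)) := rfl
  rw [h1, Algebra.norm_eq_prod_automorphisms, map_prod]
  exact (Fintype.prod_bijective _ hbij _ _ (fun j => rfl)).symm

omit [Finite (IsLocalRing.ResidueField (intRing q F))] in
theorem coe_trace_eq {φ : unramExt q F n ≃ₐ[F] unramExt q F n}
    (hbij : Function.Bijective (fun j : Fin n => φ ^ (j : ℕ))) (x : unramExt q F n) :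
    algebraMap F (PadicAlgCl q) (Algebra.trace F (unramExt q F n) x) =
      ∑ j : Fin n, (((φ ^ (j : ℕ)) x : unramExt q F n) : PadicAlgCl q) := by
  have h1 : algebraMap F (PadicAlgCl q) (Algebra.trace F (unramExt q F n) x) =
      algebraMap (unramExt q F n) (PadicAlgCl q)
        (algebraMap F (unramExt q F n) (Algebra.trace F (unramExt q F n) x)) := rfl
  rw [h1, trace_eq_sum_automorphisms, map_sum]
  exact (Fintype.sum_bijective _ hbij _ _ (fun j => rfl)).symm

end Unram

end Fermat.Agent.S55.H31
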