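/-
Program C (S55), package C3: residue-level inputs for the surjectivity of the norm on units of an
unramified extension: the norm of roots of unity hits every residue class, some trace is a unit,
and the expansion of `∏ (1 + c a_j)` (helper31).
-/
import Fermat.Agent.S55.H31.UnramNorm

set_option autoImplicit false

noncomputable section

namespace Fermat.Agent.S55.H31

open IntermediateField Fermat.Agent.S55.H66 Polynomial

variable (q : ℕ) [Fact q.Prime]

/-- `∏ (1 + c a_j) = 1 + c Σ a_j + c² r`. -/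
theorem prod_one_add_mul {R : Type*} [CommRing R] {ι : Type*} (s : Finset ι) (c : R)
    (a : ι → R) : ∃ r : R, ∏ j ∈ s, (1 + c * a j) = 1 + c * ∑ j ∈ s, a j + c ^ 2 * r := by
  classical
  induction s using Finset.induction_on with
  | empty => exact ⟨0, by simp⟩
  | insert i s hi ih =>
    obtain ⟨r, hr⟩ := ih
    refine ⟨a i * ∑ j ∈ s, a j + r + c * a i * r, ?_⟩
    rw [Finset.prod_insert hi, Finset.sum_insert hi, hr]
    ring

theorem norm_one_add_eq_one {y : PadicAlgCl q} (hy : ‖y‖ < 1) : ‖1 + y‖ = 1 := by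
  let Y : OΩ q := ⟨y, (mem_OΩ_iff q).2 hy.le⟩
  have h1 : ‖((1 + Y : OΩ q) : PadicAlgCl q)‖ ≤ 1 := (mem_OΩ_iff q).1 (1 + Y).2
  refine le_antisymm h1 (not_lt.1 fun hlt => ?_)
  have h2 : red q (1 + Y) = 0 := (red_eq_zero_iff q _).2 hlt
  have h3 : red q Y = 0 := (red_eq_zero_iff q _).2 hy
  rw [map_add, map_one, h3, add_zero] at h2
  exact one_ne_zero h2

section Unram

variable (F : Type) [Field F] [Algebra F (PadicAlgCl q)]
  [Finite (IsLocalRing.ResidueField (intRing q F))]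
variable {n : ℕ}

theorem geom_resCard (n : ℕ) :
    (∑ j ∈ Finset.range n, resCard q F ^ j) * (resCard q F - 1) = NN q F n := by
  have h2 := two_le_resCard q F
  have h := geom_sum_mul_add (resCard q F - 1) n
  rw [Nat.sub_add_cancel (by omega : 1 ≤ resCard q F)] at h
  have h3 := NN_add_one q F n
  omega

/-- The norms of the roots of unity hit every residue class of units of `F`. -/
theorem exists_pow_norm_sub_lt (hn : 0 < n) {ζ : PadicAlgCl q}
    (hζ : IsPrimitiveRoot ζ (NN q F n)) (u : F) (hu : nrm q u = 1) :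
    ∃ k : ℕ, ‖ζ ^ (k * ∑ j ∈ Finset.range n, resCard q F ^ j) -
      algebraMap F (PadicAlgCl q) u‖ < 1 := by
  classical
  have h2 := two_le_resCard q F
  set Q := resCard q F with hQ
  set M := ∑ j ∈ Finset.range n, Q ^ j with hM
  have hMQ : M * (Q - 1) = NN q F n := geom_resCard q F n
  have hNpos := NN_pos q F hn
  have hMpos : 0 < M := by
    rcases Nat.eq_zero_or_pos M with h0 | h0
    · rw [h0, zero_mul] at hMQ
      omega
    · exact h0
  have hcop := coprime_NN q F hn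
  have hζ1 : ‖ζ‖ = 1 := norm_eq_one_of_pow_eq_one' q hNpos.ne' hζ.pow_eq_one
  let Z : OΩ q := ⟨ζ, (mem_OΩ_iff q).2 hζ1.le⟩
  have hZN : Z ^ NN q F n = 1 := Subtype.ext hζ.pow_eq_one
  let U : intRing q F := ⟨u, (mem_intRing_iff q F).2 hu.le⟩
  have hU0 : psi q F U ≠ 0 := by
    intro h0
    have h1 : ‖((incl q F U : OΩ q) : PadicAlgCl q)‖ < 1 := (red_eq_zero_iff q _).1 h0
    have h3 : nrm q u < 1 := h1
    rw [hu] at h3
    exact lt_irrefl _ h3
  have hUQ : psi q F U ^ (Q - 1) = 1 := by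
    have h1 := psi_pow_resCard q F U
    have h3 : psi q F U * psi q F U ^ (Q - 1) = psi q F U * 1 := by
      rw [← pow_succ', Nat.sub_add_cancel (by omega : 1 ≤ Q), mul_one]
      exact h1
    exact mul_left_cancel₀ hU0 h3
  let S : Finset (kΩ q) := (Finset.range (Q - 1)).image (fun k => red q (Z ^ (k * M)))
  have hsub : S ⊆ nthRootsFinset (Q - 1) (1 : kΩ q) := by
    intro t ht
    obtain ⟨k, -, rfl⟩ := Finset.mem_image.1 ht
    rw [mem_nthRootsFinset (by omega)]
    rw [← map_pow, ← pow_mul, mul_assoc, hMQ, mul_comm, pow_mul, hZN, one_pow, map_one]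
  have hcard : S.card = Q - 1 := by
    rw [Finset.card_image_of_injOn, Finset.card_range]
    intro k hk k' hk' hkk'
    have hk1 : k < Q - 1 := Finset.mem_range.1 hk
    have hk'1 : k' < Q - 1 := Finset.mem_range.1 hk'
    have e1 : Z ^ (k * M) = Z ^ (k' * M) := by
      refine eq_of_red_eq q hcop ?_ ?_ hkk'
      · rw [← pow_mul, mul_comm, pow_mul, hZN, one_pow]
      · rw [← pow_mul, mul_comm, pow_mul, hZN, one_pow]
    have e2 : ζ ^ (k * M) = ζ ^ (k' * M) := congrArg Subtype.val e1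
    have e3 : k * M = k' * M := by
      refine hζ.pow_inj ?_ ?_ e2
      · rw [← hMQ, mul_comm M]
        exact Nat.mul_lt_mul_of_pos_right hk1 hMpos
      · rw [← hMQ, mul_comm M]
        exact Nat.mul_lt_mul_of_pos_right hk'1 hMpos
    exact Nat.eq_of_mul_eq_mul_right hMpos e3
  have hle : (nthRootsFinset (Q - 1) (1 : kΩ q)).card ≤ Q - 1 := by
    rw [nthRootsFinset_def]
    exact (Multiset.toFinset_card_le _).trans (card_nthRoots _ _)
  have hS : S = nthRootsFinset (Q - 1) (1 : kΩ q) :=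
    Finset.eq_of_subset_of_card_le hsub (hle.trans hcard.ge)
  have hUmem : psi q F U ∈ S := by
    rw [hS, mem_nthRootsFinset (by omega)]
    exact hUQ
  obtain ⟨k, -, hk⟩ := Finset.mem_image.1 hUmem
  refine ⟨k, ?_⟩
  exact (red_eq_red_iff q (Z ^ (k * M)) (incl q F U)).1 hk

/-- Some trace of a power of `ζ` is a unit. -/
theorem exists_trace_unit (hn : 0 < n) {ζ : PadicAlgCl q}
    (hζ : IsPrimitiveRoot ζ (NN q F n)) :
    ∃ i : ℕ, ‖∑ j : Fin n, (ζ ^ (resCard q F ^ (j : ℕ))) ^ i‖ = 1 := by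
  classical
  have hNpos := NN_pos q F hn
  have hcop := coprime_NN q F hn
  have hζ1 : ‖ζ‖ = 1 := norm_eq_one_of_pow_eq_one' q hNpos.ne' hζ.pow_eq_one
  let Z : OΩ q := ⟨ζ, (mem_OΩ_iff q).2 hζ1.le⟩
  have hZN : Z ^ NN q F n = 1 := Subtype.ext hζ.pow_eq_one
  let v : Fin n → kΩ q := fun j => red q (Z ^ (resCard q F ^ (j : ℕ)))
  have hv : Function.Injective v := by
    intro i j hij
    have e1 : Z ^ (resCard q F ^ (i : ℕ)) = Z ^ (resCard q F ^ (j : ℕ)) := by
      refine eq_of_red_eq q hcop ?_ ?_ hij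
      · rw [← pow_mul, mul_comm, pow_mul, hZN, one_pow]
      · rw [← pow_mul, mul_comm, pow_mul, hZN, one_pow]
    have e2 : ζ ^ (resCard q F ^ (i : ℕ)) = ζ ^ (resCard q F ^ (j : ℕ)) :=
      congrArg Subtype.val e1
    exact Fin.ext (pow_resCard_pow_inj q F hζ i.2 j.2 e2)
  have hdet : (Matrix.vandermonde v).det ≠ 0 := Matrix.det_vandermonde_ne_zero_iff.2 hv
  by_contra H0
  have H : ∀ i : ℕ, ‖∑ j : Fin n, (ζ ^ (resCard q F ^ (j : ℕ))) ^ i‖ ≠ 1 :=
    fun i hi => H0 ⟨i, hi⟩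
  have hzero : ∀ i : Fin n, ∑ j : Fin n, v j ^ (i : ℕ) = 0 := by
    intro i
    let T : OΩ q := ∑ j : Fin n, (Z ^ (resCard q F ^ (j : ℕ))) ^ (i : ℕ)
    have hT : ((T : OΩ q) : PadicAlgCl q) =
        ∑ j : Fin n, (ζ ^ (resCard q F ^ (j : ℕ))) ^ (i : ℕ) := by
      simp [T, Z]
    have h1 : ‖((T : OΩ q) : PadicAlgCl q)‖ ≤ 1 := (mem_OΩ_iff q).1 T.2
    have h2 : ‖((T : OΩ q) : PadicAlgCl q)‖ < 1 :=
      lt_of_le_of_ne h1 (by rw [hT]; exact H i)
    have h3 : red q T = 0 := (red_eq_zero_iff q _).2 h2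
    simpa [T, v, map_sum, map_pow] using h3
  have hvec : Matrix.vecMul (1 : Fin n → kΩ q) (Matrix.vandermonde v) = 0 := by
    funext i
    simp only [Matrix.vecMul, dotProduct, Matrix.vandermonde_apply, Pi.one_apply, one_mul,
      Pi.zero_apply]
    exact hzero i
  have h1 := Matrix.eq_zero_of_vecMul_eq_zero hdet hvec
  have h2 := congrFun h1 ⟨0, hn⟩
  simp at h2

end Unram

end Fermat.Agent.S55.H31
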