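/-
Program C (S55), package C3, leaf L3a: the norm is surjective on the units of an unramified
extension of embedded local fields (`Fermat.Agent.S55.H66.LeafUnitNorm`), from the leaf Props
`LeafUnram`, `LeafUnramUnique`, `LeafResFinite`.
Prover: helper31.
-/
import Fermat.Agent.S55.H31.UnitNormAux
import Fermat.Agent.S55.H31.UnitH90

set_option autoImplicit false

noncomputable section

namespace Fermat.Agent.S55.H31

open IntermediateField Fermat.Agent.S55.H66 Polynomial

variable (q : ℕ) [Fact q.Prime]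

section Unram

variable (F : Type) [Field F] [Algebra ℚ_[q] F] [Algebra F (PadicAlgCl q)]
  [IsScalarTower ℚ_[q] F (PadicAlgCl q)]
variable {n : ℕ} [FiniteDimensional F (unramExt q F n)] [IsGalois F (unramExt q F n)]

/-- Norms of units are units. -/
theorem nrm_norm_eq_one {φ : unramExt q F n ≃ₐ[F] unramExt q F n}
    (hbij : Function.Bijective (fun j : Fin n => φ ^ (j : ℕ))) {v : unramExt q F n}
    (hv : ‖(v : PadicAlgCl q)‖ = 1) : nrm q (Algebra.norm F v) = 1 := by
  show ‖algebraMap F (PadicAlgCl q) (Algebra.norm F v)‖ = 1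
  rw [coe_norm_eq q F hbij, norm_prod]
  refine Finset.prod_eq_one fun j _ => ?_
  rw [norm_algEquiv, hv]

/-- One step of the approximation: a `1`-unit `u` is a norm up to `‖u - 1‖ ^ 2`. -/
theorem exists_norm_approx {φ : unramExt q F n ≃ₐ[F] unramExt q F n}
    (hbij : Function.Bijective (fun j : Fin n => φ ^ (j : ℕ))) {x₁ : unramExt q F n}
    (hx₁ : ‖(x₁ : PadicAlgCl q)‖ ≤ 1) (htr : Algebra.trace F (unramExt q F n) x₁ = 1)
    (u : F) (hu : nrm q (u - 1) < 1) :
    ∃ v : unramExt q F n, ‖(v : PadicAlgCl q)‖ = 1 ∧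
      nrm q (u - Algebra.norm F v) ≤ nrm q (u - 1) ^ 2 := by
  set c : F := u - 1 with hc
  set cΩ : PadicAlgCl q := algebraMap F (PadicAlgCl q) c with hcΩ
  have hcn : ‖cΩ‖ < 1 := hu
  refine ⟨1 + algebraMap F (unramExt q F n) c * x₁, ?_, ?_⟩
  · have h1 : ((1 + algebraMap F (unramExt q F n) c * x₁ : unramExt q F n) : PadicAlgCl q) =
        1 + cΩ * (x₁ : PadicAlgCl q) := rfl
    rw [h1]
    apply norm_one_add_eq_one
    rw [norm_mul]
    calc ‖cΩ‖ * ‖(x₁ : PadicAlgCl q)‖ ≤ ‖cΩ‖ * 1 :=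
          mul_le_mul_of_nonneg_left hx₁ (norm_nonneg _)
      _ < 1 := by rw [mul_one]; exact hcn
  · let C : OΩ q := ⟨cΩ, (mem_OΩ_iff q).2 hcn.le⟩
    let A : Fin n → OΩ q := fun j =>
      ⟨(((φ ^ (j : ℕ)) x₁ : unramExt q F n) : PadicAlgCl q),
        (mem_OΩ_iff q).2 (by rw [norm_algEquiv]; exact hx₁)⟩
    obtain ⟨r, hr⟩ := prod_one_add_mul (Finset.univ : Finset (Fin n)) C A
    have hr' : ∏ j : Fin n, (1 + cΩ * (((φ ^ (j : ℕ)) x₁ : unramExt q F n) : PadicAlgCl q)) =
        1 + cΩ * ∑ j : Fin n, (((φ ^ (j : ℕ)) x₁ : unramExt q F n) : PadicAlgCl q) +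
          cΩ ^ 2 * (r : PadicAlgCl q) := by
      have h0 := congrArg (OΩ q).subtype hr
      simp only [map_prod, map_add, map_mul, map_one, map_sum, map_pow] at h0
      exact h0
    have hN : algebraMap F (PadicAlgCl q)
        (Algebra.norm F (1 + algebraMap F (unramExt q F n) c * x₁)) =
        ∏ j : Fin n, (1 + cΩ * (((φ ^ (j : ℕ)) x₁ : unramExt q F n) : PadicAlgCl q)) := by
      rw [coe_norm_eq q F hbij]
      refine Finset.prod_congr rfl fun j _ => ?_
      rw [map_add, map_one, map_mul, AlgEquiv.commutes]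
      rfl
    have hT : ∑ j : Fin n, (((φ ^ (j : ℕ)) x₁ : unramExt q F n) : PadicAlgCl q) = 1 := by
      rw [← coe_trace_eq q F hbij, htr, map_one]
    have hr1 : ‖(r : PadicAlgCl q)‖ ≤ 1 := (mem_OΩ_iff q).1 r.2
    have hsub : algebraMap F (PadicAlgCl q)
        (u - Algebra.norm F (1 + algebraMap F (unramExt q F n) c * x₁)) =
        -(cΩ ^ 2 * (r : PadicAlgCl q)) := by
      rw [map_sub, hN, hr', hT, mul_one]
      have hu' : algebraMap F (PadicAlgCl q) u = 1 + cΩ := by
        rw [hcΩ, hc, map_sub, map_one]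
        ring
      rw [hu']
      ring
    show ‖algebraMap F (PadicAlgCl q)
        (u - Algebra.norm F (1 + algebraMap F (unramExt q F n) c * x₁))‖ ≤ ‖cΩ‖ ^ 2
    rw [hsub, norm_neg, norm_mul, norm_pow]
    calc ‖cΩ‖ ^ 2 * ‖(r : PadicAlgCl q)‖ ≤ ‖cΩ‖ ^ 2 * 1 :=
          mul_le_mul_of_nonneg_left hr1 (by positivity)
      _ = ‖cΩ‖ ^ 2 := mul_one _

end Unram

section Main

variable (F : Type) [Field F] [Algebra ℚ_[q] F] [Algebra F (PadicAlgCl q)]
  [IsScalarTower ℚ_[q] F (PadicAlgCl q)] [FiniteDimensional ℚ_[q] F]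
  [Finite (IsLocalRing.ResidueField (intRing q F))]
variable {n : ℕ} [FiniteDimensional F (unramExt q F n)] [IsGalois F (unramExt q F n)]

/-- The norm is surjective on units for the unramified extension of degree `n`. -/
theorem unitNorm_unramExt (hn : 0 < n) (hdeg : Module.finrank F (unramExt q F n) = n)
    (u : F) (hu : nrm q u = 1) :
    ∃ v : unramExt q F n, nrm q v = 1 ∧ Algebra.norm F v = u := by
  obtain ⟨ζ, hζ⟩ := exists_primitiveRoot_NN q F hn
  obtain ⟨φ, hφ⟩ := exists_frobenius q F hn hζ.pow_eq_one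
  have hbij := frob_bijective q F hdeg hζ φ hφ
  set ζE : unramExt q F n := ⟨ζ, mem_unramExt q F hζ.pow_eq_one⟩ with hζE
  have hNpos := NN_pos q F hn
  have hζ1 : ‖ζ‖ = 1 := norm_eq_one_of_pow_eq_one' q hNpos.ne' hζ.pow_eq_one
  -- conjugates of powers of `ζ`
  have hconj : ∀ (j : Fin n) (i : ℕ),
      (((φ ^ (j : ℕ)) (ζE ^ i) : unramExt q F n) : PadicAlgCl q) =
        (ζ ^ (resCard q F ^ (j : ℕ))) ^ i := by
    intro j i
    rw [map_pow]
    show (((φ ^ (j : ℕ)) ζE : unramExt q F n) : PadicAlgCl q) ^ i = _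
    rw [hφ]
  -- an integral element of trace `1`
  obtain ⟨i, hi⟩ := exists_trace_unit q F hn hζ
  set t : F := Algebra.trace F (unramExt q F n) (ζE ^ i) with ht
  have htΩ : algebraMap F (PadicAlgCl q) t =
      ∑ j : Fin n, (ζ ^ (resCard q F ^ (j : ℕ))) ^ i := by
    rw [ht, coe_trace_eq q F hbij]
    exact Finset.sum_congr rfl fun j _ => hconj j i
  have htn : nrm q t = 1 := by
    show ‖algebraMap F (PadicAlgCl q) t‖ = 1
    rw [htΩ]
    exact hi
  have ht0 : t ≠ 0 := by
    intro h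
    rw [h, (nrm_eq_zero_iff q (0 : F)).2 rfl] at htn
    exact zero_ne_one htn
  set x₁ : unramExt q F n := algebraMap F (unramExt q F n) t⁻¹ * ζE ^ i with hx₁
  have hx₁n : ‖(x₁ : PadicAlgCl q)‖ ≤ 1 := by
    have h1 : (x₁ : PadicAlgCl q) = algebraMap F (PadicAlgCl q) t⁻¹ * ζ ^ i := rfl
    have h2 : ‖algebraMap F (PadicAlgCl q) t‖ = 1 := htn
    rw [h1, norm_mul, norm_pow, hζ1, one_pow, mul_one, map_inv₀, norm_inv, h2, inv_one]
  have hx₁tr : Algebra.trace F (unramExt q F n) x₁ = 1 := by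
    rw [hx₁, ← Algebra.smul_def, map_smul, smul_eq_mul, ← ht]
    exact inv_mul_cancel₀ ht0
  -- the initial approximation
  obtain ⟨k, hk⟩ := exists_pow_norm_sub_lt q F hn hζ u hu
  set M := ∑ j ∈ Finset.range n, resCard q F ^ j with hM
  have hv₀N : algebraMap F (PadicAlgCl q) (Algebra.norm F (ζE ^ k)) = ζ ^ (k * M) := by
    rw [coe_norm_eq q F hbij]
    calc ∏ j : Fin n, (((φ ^ (j : ℕ)) (ζE ^ k) : unramExt q F n) : PadicAlgCl q)
        = ∏ j : Fin n, ζ ^ (resCard q F ^ (j : ℕ) * k) :=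
          Finset.prod_congr rfl fun j _ => by rw [hconj, ← pow_mul]
      _ = ζ ^ (∑ j : Fin n, resCard q F ^ (j : ℕ) * k) := Finset.prod_pow_eq_pow_sum _ _ _
      _ = ζ ^ (k * M) := by
          rw [← Finset.sum_mul, Fin.sum_univ_eq_sum_range (fun j => resCard q F ^ j) n,
            mul_comm]
  set δ : ℝ := nrm q (u - Algebra.norm F (ζE ^ k)) with hδ
  have hδ1 : δ < 1 := by
    show ‖algebraMap F (PadicAlgCl q) (u - Algebra.norm F (ζE ^ k))‖ < 1
    rw [map_sub, hv₀N, norm_sub_rev]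
    exact hk
  have hδ0 : 0 ≤ δ := norm_nonneg _
  -- the iteration
  have hP : ∀ m : ℕ, ∃ v : unramExt q F n, ‖(v : PadicAlgCl q)‖ = 1 ∧
      nrm q (u - Algebra.norm F v) ≤ δ ^ (m + 1) := by
    intro m
    induction m with
    | zero =>
      refine ⟨ζE ^ k, ?_, by rw [zero_add, pow_one]⟩
      show ‖ζ ^ k‖ = 1
      rw [norm_pow, hζ1, one_pow]
    | succ m ih =>
      obtain ⟨v, hv1, hv2⟩ := ih
      set w : F := Algebra.norm F v with hw
      have hwn : nrm q w = 1 := nrm_norm_eq_one q F hbij hv1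
      have hw0 : w ≠ 0 := by
        intro h
        rw [h, (nrm_eq_zero_iff q (0 : F)).2 rfl] at hwn
        exact zero_ne_one hwn
      set e : ℝ := nrm q (u - w) with he
      have he0 : 0 ≤ e := norm_nonneg _
      have hu' : nrm q (u * w⁻¹ - 1) = e := by
        have h1 : u * w⁻¹ - 1 = (u - w) * w⁻¹ := by field_simp
        rw [h1, nrm_mul, nrm_inv, hwn, inv_one, mul_one]
      have hlt : δ ^ (m + 1) < 1 := pow_lt_one₀ hδ0 hδ1 (Nat.succ_ne_zero m)
      obtain ⟨v', hv'1, hv'2⟩ := exists_norm_approx q F hbij hx₁n hx₁tr (u * w⁻¹)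
        (by rw [hu']; exact lt_of_le_of_lt hv2 hlt)
      refine ⟨v * v', ?_, ?_⟩
      · show ‖(v : PadicAlgCl q) * (v' : PadicAlgCl q)‖ = 1
        rw [norm_mul, hv1, hv'1, one_mul]
      · have h1 : u - Algebra.norm F (v * v') = w * (u * w⁻¹ - Algebra.norm F v') := by
          rw [map_mul, ← hw]
          field_simp
        rw [h1, nrm_mul, hwn, one_mul]
        calc nrm q (u * w⁻¹ - Algebra.norm F v') ≤ nrm q (u * w⁻¹ - 1) ^ 2 := hv'2
          _ = e ^ 2 := by rw [hu']
          _ ≤ (δ ^ (m + 1)) ^ 2 := pow_le_pow_left₀ he0 hv2 2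
          _ = δ ^ ((m + 1) * 2) := by rw [← pow_mul]
          _ ≤ δ ^ (m + 1 + 1) := pow_le_pow_of_le_one hδ0 hδ1.le (by omega)
  -- compactness of the unit sphere of the unramified extension
  let _ : NormedSpace ℚ_[q] (unramExt q F n) :=
    ⟨fun c x => le_of_eq (norm_smul c (x : PadicAlgCl q))⟩
  have : ProperSpace (unramExt q F n) := FiniteDimensional.proper ℚ_[q] (unramExt q F n)
  let g : unramExt q F n → PadicAlgCl q := fun v =>
    ∏ j : Fin n, (((φ ^ (j : ℕ)) v : unramExt q F n) : PadicAlgCl q)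
  have hg : Continuous g := by
    refine continuous_finsetProd _ fun j _ => ?_
    have hiso := AddMonoidHomClass.isometry_of_norm (φ ^ (j : ℕ))
      (fun x => norm_algEquiv q F (unramExt q F n) (φ ^ (j : ℕ)) x)
    exact continuous_subtype_val.comp hiso.continuous
  have hgN : ∀ v, g v = algebraMap F (PadicAlgCl q) (Algebra.norm F v) :=
    fun v => (coe_norm_eq q F hbij v).symm
  have hK : IsCompact (Metric.sphere (0 : unramExt q F n) 1) := isCompact_sphere _ _
  have hclosed : IsClosed (g '' Metric.sphere (0 : unramExt q F n) 1) := (hK.image hg).isClosed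
  have hmem : algebraMap F (PadicAlgCl q) u ∈
      closure (g '' Metric.sphere (0 : unramExt q F n) 1) := by
    rw [Metric.mem_closure_iff]
    intro ε hε
    obtain ⟨m, hm⟩ := exists_pow_lt_of_lt_one hε hδ1
    obtain ⟨v, hv1, hv2⟩ := hP m
    refine ⟨g v, ⟨v, by rw [mem_sphere_zero_iff_norm]; exact hv1, rfl⟩, ?_⟩
    rw [dist_eq_norm, hgN, ← map_sub]
    calc ‖algebraMap F (PadicAlgCl q) (u - Algebra.norm F v)‖ ≤ δ ^ (m + 1) := hv2
      _ ≤ δ ^ m := pow_le_pow_of_le_one hδ0 hδ1.le (Nat.le_succ m)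
      _ < ε := hm
  rw [hclosed.closure_eq] at hmem
  obtain ⟨v, hvK, hgv⟩ := hmem
  refine ⟨v, ?_, ?_⟩
  · rw [mem_sphere_zero_iff_norm] at hvK
    exact hvK
  · apply (algebraMap F (PadicAlgCl q)).injective
    rw [← hgN]
    exact hgv

end Main

/-- Leaf L3a of the C3 spec: the norm is surjective on units of an unramified extension. -/
theorem leafUnitNorm (hU : LeafUnram q) (hUU : LeafUnramUnique q) (hfin : LeafResFinite q) :
    LeafUnitNorm q := by
  intro F _ _ _ _ _ L _ hunr u hu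
  have hL := hUU F L hunr
  have hn : 0 < Module.finrank F L := Module.finrank_pos
  generalize hm : Module.finrank F L = m at hL hn
  subst hL
  obtain ⟨-, -, hgal, -, -⟩ := hU F m hn
  have := hgal
  have := hfin F
  exact unitNorm_unramExt q F hn hm u hu

end Fermat.Agent.S55.H31
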