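/-
Program C (S55), package C5/C1: vanishing of `H¹` and `H²` of a finite cyclic group acting on a
multiplicative module, from Hilbert 90 (`N u = 1 ⇒ u = σ v / v`) and surjectivity of the norm
onto the invariants.  Mathlib + the cyclic classes CY2, CY3 (`H37.leafCycSurj`,
`H37.leafCycZero`).
-/
import Fermat.Agent.S55.H37.CycClass

set_option autoImplicit false

noncomputable section

namespace Fermat.Agent.S55.H31

open CategoryTheory groupCohomology

/-- `H¹(G, M) = 0` when every multiplicative 1-cocycle is a coboundary. -/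
theorem isZero_H1_of_mulCoboundary {G M : Type} [Group G] [CommGroup M]
    [MulDistribMulAction G M]
    (h : ∀ f : G → M, IsMulCocycle₁ f → IsMulCoboundary₁ f) :
    Limits.IsZero (groupCohomology (Rep.ofMulDistribMulAction G M) 1) := by
  rw [ModuleCat.isZero_iff_subsingleton]
  refine ⟨fun x y => ?_⟩
  have key : ∀ z : H1 (Rep.ofMulDistribMulAction G M), z = 0 := fun z =>
    H1_induction_on z fun c => (H1π_eq_zero_iff _).2 <| by
      refine (coboundariesOfIsMulCoboundary₁ ?_).2
      exact h _ (isMulCocycle₁_of_mem_cocycles₁ _ c.2)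
  exact (key x).trans (key y).symm

/-- A multiplicative 1-cocycle of a finite cyclic group is a coboundary as soon as Hilbert 90
holds for the generator. -/
theorem isMulCoboundary₁_of_generator {D U : Type} [Group D] [Fintype D] [CommGroup U]
    [MulDistribMulAction D U] (d₀ : D) (hgen : ∀ d : D, d ∈ Subgroup.zpowers d₀)
    (h90 : ∀ u : U, (∏ d : D, d • u = 1) → ∃ v : U, u * v = d₀ • v)
    (f : D → U) (hf : IsMulCocycle₁ f) : IsMulCoboundary₁ f := by
  have hN : ∏ d : D, d • f d₀ = 1 := by
    have h1 : ∀ d : D, d • f d₀ = f (d * d₀) / f d := fun d => by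
      rw [hf d d₀, mul_div_cancel_right]
    simp_rw [h1]
    rw [Finset.prod_div_distrib]
    have h2 : ∏ d : D, f (d * d₀) = ∏ d : D, f d :=
      Fintype.prod_equiv (Equiv.mulRight d₀) _ _ (fun d => rfl)
    rw [h2, div_self']
  obtain ⟨v, hv⟩ := h90 (f d₀) hN
  have hv' : f d₀ = d₀ • v / v := eq_div_of_mul_eq' hv
  have key : ∀ m : ℕ, (d₀ ^ m) • v / v = f (d₀ ^ m) := by
    intro m
    induction m with
    | zero => rw [pow_zero, one_smul, div_self', map_one_of_isMulCocycle₁ hf]
    | succ m ih =>
      rw [pow_succ, hf, ← ih, hv', smul_div', ← mul_smul, div_mul_div_cancel]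
  refine ⟨v, fun d => ?_⟩
  obtain ⟨m, rfl⟩ : ∃ m : ℕ, d₀ ^ m = d := by
    have h1 := hgen d
    rw [← mem_powers_iff_mem_zpowers] at h1
    exact h1
  exact key m

/-- `H²(D, U) = 0` for a finite cyclic group `D` as soon as every invariant is a norm. -/
theorem isZero_H2_of_generator {D U : Type} [Group D] [Fintype D] [CommGroup U]
    [MulDistribMulAction D U] (d₀ : D) (hgen : ∀ d : D, d ∈ Subgroup.zpowers d₀)
    (hnorm : ∀ a : U, (∀ d : D, d • a = a) → ∃ b : U, ∏ d : D, d • b = a) :
    Limits.IsZero (groupCohomology (Rep.ofMulDistribMulAction D U) 2) := by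
  rw [ModuleCat.isZero_iff_subsingleton]
  refine ⟨fun x y => ?_⟩
  have key : ∀ z : groupCohomology (Rep.ofMulDistribMulAction D U) 2, z = 0 := by
    intro z
    obtain ⟨a, ha, rfl⟩ := H37.leafCycSurj ℤ D (Rep.ofMulDistribMulAction D U) d₀ hgen z
    obtain ⟨b, hb⟩ := hnorm (Additive.toMul (a : Additive U)) (fun d => ha d)
    refine (H37.leafCycZero ℤ D (Rep.ofMulDistribMulAction D U) d₀ hgen a ha).2
      ⟨(Additive.ofMul b : Additive U), ?_⟩
    have h1 : (∑ g : D, (Additive.ofMul (g • b) : Additive U))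
        = Additive.ofMul (∏ g : D, g • b) := (ofMul_prod _ _).symm
    have h2 : (∑ g : D, (Rep.ofMulDistribMulAction D U).ρ g (Additive.ofMul b : Additive U))
        = Additive.ofMul (∏ g : D, g • b) := h1
    rw [h2, hb]
    rfl
  rw [key x, key y]

end Fermat.Agent.S55.H31
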