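/-
Program C (S55), package C5 (semi-local modules in the embedding model, designer helper88):
the semi-local unit group `(K ⊗ ℚ_q)ˣ` (and its subgroup of local units) is the product of the
modules coinduced from the decomposition groups.

* `DblOrbit q k K` : the double orbits `Gal(Ω/ℚ_q) \ (K →+* Ω) / Gal(K/k)` (the places of `k`
  above `q` that extend to `K`), with chosen representatives `i.emb`;
* `exists_semiLocal_glue`, `semiLocal_ext_dbl` : gluing and separation for `semiLocal q K`;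
* `semiLocalRep_sep`, `semiLocalRep_glue` : the hypotheses `hsep`, `hglue` of
  `ShapiroInj.lean` for `H88.semiLocalRep q k K` and the evaluations `H88.semiLocalToLoc`;
* `semiLocalDetect_one`, `semiLocalDetect_two` : `H88.SemiLocalDetectStatement q k K n` for
  `n = 1, 2` (C5 leaf D1; no hypothesis on `K / k`);
* `finite_dblOrbit` : finitely many double orbits for a number field.

The same for the local units `H88.semiLocalUnitsRep k K q` is in `SemiLocalUnitsGlue.lean`.
-/
import Fermat.Agent.S55.H31.ShapiroInj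
import Fermat.Agent.S55.H88.SemiLocalSpec

set_option autoImplicit false

noncomputable section

namespace Fermat.Agent.S55.H31

open Fermat.Agent.S55.H88 CategoryTheory

variable (q : ℕ) [Fact q.Prime]

/-- The local Galois group acts on `PadicAlgCl q` by isometries. -/
theorem norm_padicGal (g : PadicAlgCl q ≃ₐ[ℚ_[q]] PadicAlgCl q) (x : PadicAlgCl q) :
    ‖g x‖ = ‖x‖ := by
  rw [← PadicAlgCl.spectralNorm_eq, ← PadicAlgCl.spectralNorm_eq]
  exact (spectralNorm_eq_of_equiv g x).symm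

section Orbits

variable (k K : Type) [Field k] [Field K] [Algebra k K]

/-- Two embeddings are in the same double orbit when they differ by an element of the local
Galois group and an element of `Gal(K/k)`. -/
def dblSetoid : Setoid (K →+* PadicAlgCl q) where
  r τ τ' := ∃ (g : PadicAlgCl q ≃ₐ[ℚ_[q]] PadicAlgCl q) (x : K ≃ₐ[k] K),
    ∀ y : K, τ' y = g (τ (x y))
  iseqv :=
    { refl := fun τ => ⟨1, 1, fun y => rfl⟩
      symm := by
        rintro τ τ' ⟨g, x, h⟩
        refine ⟨g⁻¹, x⁻¹, fun y => ?_⟩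
        rw [h, show x (x⁻¹ y) = y from x.apply_symm_apply y]
        exact (g.symm_apply_apply _).symm
      trans := by
        rintro τ τ' τ'' ⟨g, x, h⟩ ⟨g', x', h'⟩
        exact ⟨g' * g, x * x', fun y => by rw [h', h]; rfl⟩ }

/-- The double orbits `Gal(Ω/ℚ_q) \ (K →+* Ω) / Gal(K/k)`. -/
def DblOrbit : Type := Quotient (dblSetoid q k K)

/-- The double orbit of an embedding. -/
def dblOf (τ : K →+* PadicAlgCl q) : DblOrbit q k K := Quotient.mk (dblSetoid q k K) τ

variable {q k K} in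
/-- A chosen embedding in a double orbit. -/
def DblOrbit.emb (i : DblOrbit q k K) : K →+* PadicAlgCl q := Quotient.out i

theorem exists_dbl_rep (τ : K →+* PadicAlgCl q) :
    ∃ (g : PadicAlgCl q ≃ₐ[ℚ_[q]] PadicAlgCl q) (x : K ≃ₐ[k] K), ∀ y : K,
      τ y = g (DblOrbit.emb (dblOf q k K τ) (x y)) :=
  Quotient.mk_out (s := dblSetoid q k K) τ

theorem dbl_mk_eq (i : DblOrbit q k K) (g : PadicAlgCl q ≃ₐ[ℚ_[q]] PadicAlgCl q)
    (x : K ≃ₐ[k] K) (τ : K →+* PadicAlgCl q) (h : ∀ y : K, τ y = g (i.emb (x y))) :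
    dblOf q k K τ = i :=
  (Quotient.sound ((dblSetoid q k K).symm ⟨g, x, h⟩)).trans (Quotient.out_eq i)

/-- Well-definedness of the glued function. -/
theorem semiLocal_glue_wd (τ₀ : K →+* PadicAlgCl q) (F : (K ≃ₐ[k] K) → PadicAlgCl q)
    (hmem : ∀ x, F x ∈ locField q τ₀)
    (hF : ∀ (d : decompGroup q k τ₀) (x : K ≃ₐ[k] K),
      F ((d : K ≃ₐ[k] K) * x) = decompLift q k τ₀ d (F x))
    (g g' : PadicAlgCl q ≃ₐ[ℚ_[q]] PadicAlgCl q) (x x' : K ≃ₐ[k] K)
    (h : ∀ y : K, g (τ₀ (x y)) = g' (τ₀ (x' y))) : g (F x) = g' (F x') := by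
  have hd : τ₀.comp (((x * x'⁻¹ : K ≃ₐ[k] K) : K ≃+* K) : K →+* K)
      = ((g⁻¹ * g' : PadicAlgCl q ≃ₐ[ℚ_[q]] PadicAlgCl q) : PadicAlgCl q →+* PadicAlgCl q).comp
        τ₀ := by
    refine RingHom.ext fun y => ?_
    show τ₀ (x (x'⁻¹ y)) = g⁻¹ (g' (τ₀ y))
    have h1 := h (x'⁻¹ y)
    rw [show x' (x'⁻¹ y) = y from x'.apply_symm_apply y] at h1
    rw [← h1]
    exact (g.symm_apply_apply _).symm
  have h2 : F x = (g⁻¹ * g' : PadicAlgCl q ≃ₐ[ℚ_[q]] PadicAlgCl q) (F x') := by
    have h3 := hF ⟨x * x'⁻¹, g⁻¹ * g', hd⟩ x'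
    rw [show ((⟨x * x'⁻¹, g⁻¹ * g', hd⟩ : decompGroup q k τ₀) : K ≃ₐ[k] K) * x' = x from
      inv_mul_cancel_right x x'] at h3
    rw [h3]
    exact decompLift_eq_of_comp_eq q k τ₀ _ (g⁻¹ * g') hd (hmem x')
  rw [h2]
  show g (g⁻¹ (g' (F x'))) = g' (F x')
  exact g.apply_symm_apply _

/-- **Gluing** for the semi-local algebra: a family of functions on `Gal(K/k)`, one for each
double orbit, equivariant for the decomposition groups, comes from a semi-local element. -/
theorem exists_semiLocal_glue (F : DblOrbit q k K → (K ≃ₐ[k] K) → PadicAlgCl q)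
    (hmem : ∀ i x, F i x ∈ locField q i.emb)
    (hF : ∀ (i : DblOrbit q k K) (d : decompGroup q k i.emb) (x : K ≃ₐ[k] K),
      F i ((d : K ≃ₐ[k] K) * x) = decompLift q k i.emb d (F i x)) :
    ∃ a : semiLocal q K, ∀ (i : DblOrbit q k K) (x : K ≃ₐ[k] K),
      (a : (K →+* PadicAlgCl q) → PadicAlgCl q) (i.emb.comp ((x : K ≃+* K) : K →+* K))
        = F i x := by
  choose gg xx hgx using exists_dbl_rep q k K
  have key : ∀ (i : DblOrbit q k K) (τ : K →+* PadicAlgCl q)
      (g : PadicAlgCl q ≃ₐ[ℚ_[q]] PadicAlgCl q) (x : K ≃ₐ[k] K),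
      (∀ y : K, τ y = g (i.emb (x y))) →
        gg τ (F (dblOf q k K τ) (xx τ)) = g (F i x) := by
    intro i τ g x h
    have hi := dbl_mk_eq q k K i g x τ h
    subst hi
    exact semiLocal_glue_wd q k K _ (F _) (hmem _) (hF _) (gg τ) g (xx τ) x
      (fun y => (hgx τ y).symm.trans (h y))
  refine ⟨⟨fun τ => gg τ (F (dblOf q k K τ) (xx τ)), ?_⟩, ?_⟩
  · intro g τ
    exact key (dblOf q k K τ) _ (g * gg τ) (xx τ)
      (fun y => congrArg g (hgx τ y))
  · intro i x
    exact key i _ 1 x (fun y => rfl)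

/-- **Separation** for the semi-local algebra. -/
theorem semiLocal_ext_dbl (a b : semiLocal q K)
    (h : ∀ (i : DblOrbit q k K) (x : K ≃ₐ[k] K),
      (a : (K →+* PadicAlgCl q) → PadicAlgCl q) (i.emb.comp ((x : K ≃+* K) : K →+* K))
        = (b : (K →+* PadicAlgCl q) → PadicAlgCl q) (i.emb.comp ((x : K ≃+* K) : K →+* K))) :
    a = b := by
  refine Subtype.ext (funext fun τ => ?_)
  obtain ⟨g, x, hgx⟩ := exists_dbl_rep q k K τ
  have hτ : τ = (g : PadicAlgCl q →+* PadicAlgCl q).comp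
      ((DblOrbit.emb (dblOf q k K τ)).comp
        ((x : K ≃+* K) : K →+* K)) := RingHom.ext hgx
  rw [hτ, a.2 g, b.2 g, h]

end Orbits

section Reps

variable (k K : Type) [Field k] [Field K] [Algebra k K]

/-- Gluing of semi-local units. -/
theorem exists_semiLocalUnit_glue
    (F : ∀ i : DblOrbit q k K, (K ≃ₐ[k] K) → (locField q i.emb)ˣ)
    (hF : ∀ (i : DblOrbit q k K) (d : decompGroup q k i.emb) (x : K ≃ₐ[k] K),
      F i ((d : K ≃ₐ[k] K) * x) = d • F i x) :
    ∃ u : (semiLocal q K)ˣ, ∀ (i : DblOrbit q k K) (x : K ≃ₐ[k] K),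
      ((u : semiLocal q K) : (K →+* PadicAlgCl q) → PadicAlgCl q)
        (i.emb.comp ((x : K ≃+* K) : K →+* K))
        = ((F i x : locField q i.emb) : PadicAlgCl q) := by
  obtain ⟨a, ha⟩ := exists_semiLocal_glue q k K
    (fun i x => ((F i x : locField q i.emb) : PadicAlgCl q))
    (fun i x => (F i x : locField q i.emb).2)
    (fun i d x => by rw [hF i d x]; rfl)
  obtain ⟨a', ha'⟩ := exists_semiLocal_glue q k K
    (fun i x => ((((F i x)⁻¹ : (locField q i.emb)ˣ) : locField q i.emb) : PadicAlgCl q))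
    (fun i x => (((F i x)⁻¹ : (locField q i.emb)ˣ) : locField q i.emb).2)
    (fun i d x => by rw [hF i d x, ← smul_inv']; rfl)
  have h1 : a * a' = 1 := by
    apply semiLocal_ext_dbl q k K
    intro i x
    show (a : (K →+* PadicAlgCl q) → PadicAlgCl q) _ *
      (a' : (K →+* PadicAlgCl q) → PadicAlgCl q) _ = 1
    rw [ha, ha']
    exact congrArg (fun z : locField q i.emb => (z : PadicAlgCl q)) (F i x).mul_inv
  exact ⟨⟨a, a', h1, by rw [mul_comm]; exact h1⟩, ha⟩

/-- `hsep` for `(K ⊗ ℚ_q)ˣ`. -/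
theorem semiLocalRep_sep (a : semiLocalRep q k K)
    (h : ∀ (i : DblOrbit q k K) (x : K ≃ₐ[k] K),
      (semiLocalToLoc q k i.emb).hom ((semiLocalRep q k K).ρ x a) = 0) : a = 0 := by
  have h1 : (Additive.toMul (a : Additive (semiLocal q K)ˣ) : (semiLocal q K)ˣ) = 1 := by
    apply Units.ext
    apply semiLocal_ext_dbl q k K
    intro i x
    exact congrArg (fun z : Additive (locField q i.emb)ˣ =>
      (((Additive.toMul z : (locField q i.emb)ˣ) : locField q i.emb) : PadicAlgCl q)) (h i x)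
  exact h1

/-- `hglue` for `(K ⊗ ℚ_q)ˣ`. -/
theorem semiLocalRep_glue (f : ∀ i : DblOrbit q k K, (K ≃ₐ[k] K) → locUnitsRep q k i.emb)
    (hf : ∀ (i : DblOrbit q k K) (d : decompGroup q k i.emb) (x : K ≃ₐ[k] K),
      f i ((d : K ≃ₐ[k] K) * x) = (locUnitsRep q k i.emb).ρ d (f i x)) :
    ∃ a : semiLocalRep q k K, ∀ (i : DblOrbit q k K) (x : K ≃ₐ[k] K),
      (semiLocalToLoc q k i.emb).hom ((semiLocalRep q k K).ρ x a) = f i x := by
  obtain ⟨u, hu⟩ := exists_semiLocalUnit_glue q k K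
    (fun i x => (Additive.toMul (f i x : Additive (locField q i.emb)ˣ) : (locField q i.emb)ˣ))
    (fun i d x => congrArg Additive.toMul (hf i d x))
  refine ⟨(Additive.ofMul u : Additive (semiLocal q K)ˣ), fun i x => ?_⟩
  have h1 : (Additive.toMul ((semiLocalToLoc q k i.emb).hom
      ((semiLocalRep q k K).ρ x (Additive.ofMul u : Additive (semiLocal q K)ˣ)) :
        Additive (locField q i.emb)ˣ) : (locField q i.emb)ˣ)
      = Additive.toMul (f i x : Additive (locField q i.emb)ˣ) :=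
    Units.ext (Subtype.ext (hu i x))
  exact h1

/-- **C5 leaf D1, degree 1**: a class of `H¹(Gal(K/k), (K ⊗ ℚ_q)ˣ)` all of whose localisations
vanish is zero. -/
theorem semiLocalDetect_one : SemiLocalDetectStatement q k K 1 := fun x hx =>
  shapiro_inj_H1 (semiLocalRep q k K) (fun i : DblOrbit q k K => decompGroup q k i.emb)
    (fun i => locUnitsRep q k i.emb) (fun i => semiLocalToLoc q k i.emb)
    (semiLocalRep_sep q k K) (semiLocalRep_glue q k K) x (fun i => hx i.emb)

/-- **C5 leaf D1, degree 2**: a class of `H²(Gal(K/k), (K ⊗ ℚ_q)ˣ)` all of whose localisations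
vanish is zero. -/
theorem semiLocalDetect_two : SemiLocalDetectStatement q k K 2 := fun x hx =>
  shapiro_inj_H2 (semiLocalRep q k K) (fun i : DblOrbit q k K => decompGroup q k i.emb)
    (fun i => locUnitsRep q k i.emb) (fun i => semiLocalToLoc q k i.emb)
    (semiLocalRep_sep q k K) (semiLocalRep_glue q k K) x (fun i => hx i.emb)

/-- For a number field there are finitely many double orbits. -/
theorem finite_dblOrbit [NumberField K] : Finite (DblOrbit q k K) := by
  have : Finite (K →+* PadicAlgCl q) :=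
    Finite.of_equiv (K →ₐ[ℚ] PadicAlgCl q) (RingHom.equivRatAlgHom K (PadicAlgCl q)).symm
  exact Quotient.finite _

end Reps

end Fermat.Agent.S55.H31
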