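/-
Program C (S55), package C5 (semi-local modules in the embedding model, designer helper88):
the semi-local UNIT group `∏_{w ∣ q} 𝒪_wˣ` is the product of the modules coinduced from the
decomposition groups acting on the local unit groups.

* `locUnitGroupRep q k τ` : the local units `locUnits q (locField q τ)` as a representation of
  the decomposition group `decompGroup q k τ`;
* `semiLocalUnitsToLoc q k τ` : evaluation at `τ`,
  `Res (semiLocalUnitsRep k K q) ⟶ locUnitGroupRep q k τ`;
* `semiLocalUnitsRep_sep`, `semiLocalUnitsRep_glue` : the hypotheses `hsep`, `hglue` of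
  `ShapiroInj.lean` for these;
* `semiLocalUnits_detect_one/two`, `semiLocalUnits_isZero` : Shapiro injectivity for the
  semi-local units in degrees 1, 2.
-/
import Fermat.Agent.S55.H31.SemiLocalGlue

set_option autoImplicit false
set_option linter.unusedVariables false

noncomputable section

namespace Fermat.Agent.S55.H31

open Fermat.Agent.S55.H88 CategoryTheory

variable (q : ℕ) [Fact q.Prime]

section Local

variable (k : Type) {K : Type} [Field k] [Field K] [Algebra k K]

theorem smul_mem_locUnits (τ : K →+* PadicAlgCl q) (σ : decompGroup q k τ)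
    {u : (locField q τ)ˣ} (hu : u ∈ locUnits q (locField q τ)) :
    σ • u ∈ locUnits q (locField q τ) := by
  show ‖(((σ • u : (locField q τ)ˣ) : locField q τ) : PadicAlgCl q)‖ = 1
  rw [coe_smul_locUnits, coe_decompAut_apply, norm_padicGal]
  exact hu

/-- The action of the decomposition group on the local units. -/
instance locUnitGroupAction (τ : K →+* PadicAlgCl q) :
    MulDistribMulAction (decompGroup q k τ) (locUnits q (locField q τ)) where
  smul σ u := ⟨σ • (u : (locField q τ)ˣ), smul_mem_locUnits q k τ σ u.2⟩
  one_smul u := Subtype.ext (one_smul _ _)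
  mul_smul σ ρ u := Subtype.ext (mul_smul _ _ _)
  smul_mul σ u v := Subtype.ext (smul_mul' _ _ _)
  smul_one σ := Subtype.ext (smul_one _)

@[simp] theorem coe_smul_locUnitGroup (τ : K →+* PadicAlgCl q) (σ : decompGroup q k τ)
    (u : locUnits q (locField q τ)) :
    ((σ • u : locUnits q (locField q τ)) : (locField q τ)ˣ) = σ • (u : (locField q τ)ˣ) := rfl

/-- The local units `𝒪_wˣ` as a representation of the decomposition group. -/
def locUnitGroupRep (τ : K →+* PadicAlgCl q) : Rep ℤ (decompGroup q k τ) :=
  Rep.ofMulDistribMulAction (decompGroup q k τ) (locUnits q (locField q τ))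

/-- Evaluation at `τ` on the semi-local units. -/
def semiLocalUnitsEval (τ : K →+* PadicAlgCl q) :
    semiLocalUnits q K →* locUnits q (locField q τ) where
  toFun u := ⟨Units.map (semiLocalEvalLoc q τ : semiLocal q K →* locField q τ)
    (u : (semiLocal q K)ˣ), u.2 τ⟩
  map_one' := Subtype.ext (map_one _)
  map_mul' a b := Subtype.ext (map_mul _ _ _)

theorem coe_semiLocalUnitsEval (τ : K →+* PadicAlgCl q) (u : semiLocalUnits q K) :
    ((((semiLocalUnitsEval q τ u : locUnits q (locField q τ)) : (locField q τ)ˣ) :
      locField q τ) : PadicAlgCl q)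
      = (((u : (semiLocal q K)ˣ) : semiLocal q K) : (K →+* PadicAlgCl q) → PadicAlgCl q) τ :=
  rfl

/-- Evaluation at `τ` as a morphism of representations of the decomposition group. -/
def semiLocalUnitsToLoc (τ : K →+* PadicAlgCl q) :
    Rep.res (decompGroup q k τ).subtype (semiLocalUnitsRep k K q) ⟶ locUnitGroupRep q k τ :=
  Rep.ofHom ⟨(MonoidHom.toAdditive (semiLocalUnitsEval q τ)).toIntLinearMap,
    fun σ => LinearMap.ext fun u =>
      congrArg Additive.ofMul (Subtype.ext (Units.ext (semiLocalEvalLoc_smul q τ σ
        ((((Additive.toMul (α := semiLocalUnits q K) u : semiLocalUnits q K) :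
          (semiLocal q K)ˣ) : semiLocal q K)))))⟩

end Local

section Reps

variable (k K : Type) [Field k] [Field K] [Algebra k K]

/-- `hsep` for the semi-local units. -/
theorem semiLocalUnitsRep_sep (a : semiLocalUnitsRep k K q)
    (h : ∀ (i : DblOrbit q k K) (x : K ≃ₐ[k] K),
      (semiLocalUnitsToLoc q k i.emb).hom ((semiLocalUnitsRep k K q).ρ x a) = 0) : a = 0 := by
  have h1 : (Additive.toMul (a : Additive (semiLocalUnits q K)) : semiLocalUnits q K) = 1 := by
    apply Subtype.ext
    apply Units.ext
    apply semiLocal_ext_dbl q k K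
    intro i x
    exact congrArg (fun z : Additive (locUnits q (locField q i.emb)) =>
      ((((Additive.toMul z : locUnits q (locField q i.emb)) : (locField q i.emb)ˣ) :
        locField q i.emb) : PadicAlgCl q)) (h i x)
  exact h1

/-- `hglue` for the semi-local units. -/
theorem semiLocalUnitsRep_glue
    (f : ∀ i : DblOrbit q k K, (K ≃ₐ[k] K) → locUnitGroupRep q k i.emb)
    (hf : ∀ (i : DblOrbit q k K) (d : decompGroup q k i.emb) (x : K ≃ₐ[k] K),
      f i ((d : K ≃ₐ[k] K) * x) = (locUnitGroupRep q k i.emb).ρ d (f i x)) :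
    ∃ a : semiLocalUnitsRep k K q, ∀ (i : DblOrbit q k K) (x : K ≃ₐ[k] K),
      (semiLocalUnitsToLoc q k i.emb).hom ((semiLocalUnitsRep k K q).ρ x a) = f i x := by
  obtain ⟨u, hu⟩ := exists_semiLocalUnit_glue q k K
    (fun i x => ((Additive.toMul (f i x : Additive (locUnits q (locField q i.emb))) :
      locUnits q (locField q i.emb)) : (locField q i.emb)ˣ))
    (fun i d x => congrArg (fun z : Additive (locUnits q (locField q i.emb)) =>
      ((Additive.toMul z : locUnits q (locField q i.emb)) : (locField q i.emb)ˣ)) (hf i d x))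
  have hmem : u ∈ semiLocalUnits q K := by
    intro τ
    obtain ⟨g, x, hgx⟩ := exists_dbl_rep q k K τ
    have hτ : τ = (g : PadicAlgCl q →+* PadicAlgCl q).comp
        ((DblOrbit.emb (dblOf q k K τ)).comp ((x : K ≃+* K) : K →+* K)) := RingHom.ext hgx
    rw [hτ, (u : semiLocal q K).2 g, norm_padicGal, hu]
    exact (Additive.toMul (f (dblOf q k K τ) x :
      Additive (locUnits q (locField q (DblOrbit.emb (dblOf q k K τ))))) :
        locUnits q (locField q (DblOrbit.emb (dblOf q k K τ)))).2
  refine ⟨(Additive.ofMul (⟨u, hmem⟩ : semiLocalUnits q K) : Additive (semiLocalUnits q K)),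
    fun i x => ?_⟩
  have h1 : (Additive.toMul ((semiLocalUnitsToLoc q k i.emb).hom
      ((semiLocalUnitsRep k K q).ρ x
        (Additive.ofMul (⟨u, hmem⟩ : semiLocalUnits q K) : Additive (semiLocalUnits q K))) :
          Additive (locUnits q (locField q i.emb))) : locUnits q (locField q i.emb))
      = Additive.toMul (f i x : Additive (locUnits q (locField q i.emb))) :=
    Subtype.ext (Units.ext (Subtype.ext (hu i x)))
  exact h1

/-- Shapiro injectivity for the semi-local units, degree 1. -/
theorem semiLocalUnits_detect_one (x : groupCohomology (semiLocalUnitsRep k K q) 1)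
    (hx : ∀ τ : K →+* PadicAlgCl q,
      (groupCohomology.map (decompGroup q k τ).subtype (semiLocalUnitsToLoc q k τ) 1).hom x = 0) :
    x = 0 :=
  shapiro_inj_H1 (semiLocalUnitsRep k K q) (fun i : DblOrbit q k K => decompGroup q k i.emb)
    (fun i => locUnitGroupRep q k i.emb) (fun i => semiLocalUnitsToLoc q k i.emb)
    (semiLocalUnitsRep_sep q k K) (semiLocalUnitsRep_glue q k K) x (fun i => hx i.emb)

/-- Shapiro injectivity for the semi-local units, degree 2. -/
theorem semiLocalUnits_detect_two (x : groupCohomology (semiLocalUnitsRep k K q) 2)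
    (hx : ∀ τ : K →+* PadicAlgCl q,
      (groupCohomology.map (decompGroup q k τ).subtype (semiLocalUnitsToLoc q k τ) 2).hom x = 0) :
    x = 0 :=
  shapiro_inj_H2 (semiLocalUnitsRep k K q) (fun i : DblOrbit q k K => decompGroup q k i.emb)
    (fun i => locUnitGroupRep q k i.emb) (fun i => semiLocalUnitsToLoc q k i.emb)
    (semiLocalUnitsRep_sep q k K) (semiLocalUnitsRep_glue q k K) x (fun i => hx i.emb)

/-- If the local unit groups have trivial `Hⁿ` (`n = 1, 2`) for all decomposition groups, so do
the semi-local units. -/
theorem semiLocalUnits_isZero (n : ℕ) (hn : n = 1 ∨ n = 2)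
    (h : ∀ τ : K →+* PadicAlgCl q,
      Limits.IsZero (groupCohomology (locUnitGroupRep q k τ) n)) :
    Limits.IsZero (groupCohomology (semiLocalUnitsRep k K q) n) :=
  shapiro_isZero (semiLocalUnitsRep k K q) (fun i : DblOrbit q k K => decompGroup q k i.emb)
    (fun i => locUnitGroupRep q k i.emb) (fun i => semiLocalUnitsToLoc q k i.emb)
    (semiLocalUnitsRep_sep q k K) (semiLocalUnitsRep_glue q k K) n hn (fun i => h i.emb)

end Reps

end Fermat.Agent.S55.H31
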