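/-
Package C3 (local fields in the `PadicAlgCl q` model), leaf `LeafUnitNorm`, unconditional form.

`leafUnitNorm_holds q : H66.LeafUnitNorm q` — in an unramified extension of embedded local
fields every unit of the base field is a norm.  It is `H31.leafUnitNorm` with its three
hypotheses discharged by the landed leaves `H28.leafUnram`, `H53.leafUnramUnique_of` and
`H66.leafResFinite`.
-/
import Fermat.Agent.S55.H31.UnitNorm
import Fermat.Agent.S55.H28.Unram
import Fermat.Agent.S55.H53.UnramUnique
import Fermat.Agent.S55.H66.LocalBridge

namespace Fermat.Agent.S55.H31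

/-- **C3 leaf `LeafUnitNorm`**, verbatim and unconditional. -/
theorem leafUnitNorm_holds (q : ℕ) [Fact q.Prime] : H66.LeafUnitNorm q :=
  leafUnitNorm q (H28.leafUnram q) (H53.leafUnramUnique_of q (H28.leafUnram q))
    (H66.leafResFinite q)

/-- `LeafUnramUnique`, verbatim and unconditional (helper53's conditional leaf with helper28's
`leafUnram`). -/
theorem leafUnramUnique_holds (q : ℕ) [Fact q.Prime] : H66.LeafUnramUnique q :=
  H53.leafUnramUnique_of q (H28.leafUnram q)

end Fermat.Agent.S55.H31
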