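/-
Program C (S55), package C5 (semi-local modules, designer helper88), leaf D2:
`H88.UnramifiedUnitsStatement q k K` — at a prime `q` unramified in the finite Galois
extension `K / k` of number fields, the semi-local units `∏_{w ∣ q} 𝒪_wˣ` have trivial `H¹` and
`H²` as a `Gal(K/k)`-module.

Route: Shapiro injectivity (`SemiLocalUnitsGlue.lean`) reduces to the decomposition groups
acting on the local units; `D_w ≃ Gal(K_w/k_v)` (`decompToGal`), which is cyclic generated by
a Frobenius (C3 leaf `LeafFrob`); `H¹ = 0` by Hilbert 90 for units (`H31.leafUnitH90`), `H² = 0`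
because units of `k_v` are norms of units (`H31.leafUnitNorm_holds`) and CY2/CY3.
-/
import Fermat.Agent.S55.H31.SemiLocalUnitsGlue
import Fermat.Agent.S55.H31.CyclicVanish
import Fermat.Agent.S55.H31.UnitNormFinal
import Fermat.Agent.S55.H31.UnitH90
import Fermat.Agent.S55.H63.Frob
import Fermat.Agent.S55.H88.LayerDefs
import Fermat.Agent.S55.H20.Decomp

set_option autoImplicit false
set_option linter.unusedVariables false

noncomputable section

namespace Fermat.Agent.S55.H31

open Fermat.Agent.S55.H88 Fermat.Agent.S55.H66 CategoryTheory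

variable (q : ℕ) [Fact q.Prime]

section Local

variable (k : Type) {K : Type} [Field k] [Field K] [Algebra k K] (τ : K →+* PadicAlgCl q)

/-- Elements of the decomposition group fix the completion of the base field. -/
theorem decompLift_fix (σ : decompGroup q k τ) {y : PadicAlgCl q} (hy : y ∈ locBase q k τ) :
    decompLift q k τ σ y = y := by
  refine eqOn_locField q (τ.comp (algebraMap k K)) (decompLift q k τ σ) 1 ?_ hy
  refine RingHom.ext fun c => ?_
  show decompLift q k τ σ (τ (algebraMap k K c)) = τ (algebraMap k K c)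
  rw [decompLift_apply, AlgEquiv.commutes]

/-- The decomposition group as a group of automorphisms of `K_w / k_v` (C3's presentation of
the local extension). -/
def decompToGal : decompGroup q k τ →* (locExt q k τ ≃ₐ[locBase q k τ] locExt q k τ) where
  toFun σ :=
    { toFun := fun z => ⟨decompLift q k τ σ z, decompLift_mem q k τ σ z.2⟩
      invFun := fun z => ⟨decompLift q k τ σ⁻¹ z, decompLift_mem q k τ σ⁻¹ z.2⟩
      left_inv := fun z => Subtype.ext (by
        show decompLift q k τ σ⁻¹ (decompLift q k τ σ z) = z
        rw [← decompLift_mul_apply q k τ σ⁻¹ σ z.2, inv_mul_cancel]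
        exact decompLift_one_apply q k τ z.2)
      right_inv := fun z => Subtype.ext (by
        show decompLift q k τ σ (decompLift q k τ σ⁻¹ z) = z
        rw [← decompLift_mul_apply q k τ σ σ⁻¹ z.2, mul_inv_cancel]
        exact decompLift_one_apply q k τ z.2)
      map_mul' := fun a b => Subtype.ext (map_mul (decompLift q k τ σ) (a : PadicAlgCl q) b)
      map_add' := fun a b => Subtype.ext (map_add (decompLift q k τ σ) (a : PadicAlgCl q) b)
      commutes' := fun c => Subtype.ext (decompLift_fix q k τ σ c.2) }
  map_one' := AlgEquiv.ext fun z => Subtype.ext (decompLift_one_apply q k τ z.2)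
  map_mul' σ ρ := AlgEquiv.ext fun z => Subtype.ext (decompLift_mul_apply q k τ σ ρ z.2)

@[simp] theorem coe_decompToGal_apply (σ : decompGroup q k τ) (z : locExt q k τ) :
    ((decompToGal q k τ σ z : locExt q k τ) : PadicAlgCl q) = decompLift q k τ σ z := rfl

theorem decompToGal_injective : Function.Injective (decompToGal q k τ) := by
  intro σ ρ h
  refine Subtype.ext (AlgEquiv.ext fun x => τ.injective ?_)
  have h1 := congrArg (fun α : locExt q k τ ≃ₐ[locBase q k τ] locExt q k τ =>
    ((α (locExtEmb q k τ x) : locExt q k τ) : PadicAlgCl q)) h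
  have h2 : decompLift q k τ σ (τ x) = decompLift q k τ ρ (τ x) := h1
  rw [decompLift_apply, decompLift_apply] at h2
  exact h2

theorem decompToGal_surjective [Normal k K] : Function.Surjective (decompToGal q k τ) := by
  intro α
  obtain ⟨σ, hσ⟩ := exists_global_of_local q k τ α
  let g : PadicAlgCl q ≃ₐ[ℚ_[q]] PadicAlgCl q :=
    (α.restrictScalars ℚ_[q]).liftNormal (PadicAlgCl q)
  have hg : ∀ z : locExt q k τ, g (z : PadicAlgCl q) = ((α z : locExt q k τ) : PadicAlgCl q) :=
    fun z => AlgEquiv.liftNormal_commutes (α.restrictScalars ℚ_[q]) (PadicAlgCl q) z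
  have hd : τ.comp (((σ : K ≃ₐ[k] K) : K ≃+* K) : K →+* K)
      = (g : PadicAlgCl q →+* PadicAlgCl q).comp τ := by
    refine RingHom.ext fun x => ?_
    show τ (σ x) = g (τ x)
    rw [← hσ x]
    exact (hg (locExtEmb q k τ x)).symm
  refine ⟨⟨σ, g, hd⟩, AlgEquiv.ext fun z => Subtype.ext ?_⟩
  rw [coe_decompToGal_apply, decompLift_eq_of_comp_eq q k τ ⟨σ, g, hd⟩ g hd z.2]
  exact hg z

/-! ### Local units as elements of the local extension -/

variable {q τ} in
/-- The value in `Ω` of a local unit. -/
def locUnitVal : locUnits q (locField q τ) →* PadicAlgCl q :=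
  (((algebraMap (locField q τ) (PadicAlgCl q) : locField q τ →+* PadicAlgCl q) :
    locField q τ →* PadicAlgCl q).comp (Units.coeHom (locField q τ))).comp
      (locUnits q (locField q τ)).subtype

theorem locUnitVal_apply (u : locUnits q (locField q τ)) :
    locUnitVal u = (((u : (locField q τ)ˣ) : locField q τ) : PadicAlgCl q) := rfl

theorem locUnitVal_injective : Function.Injective (locUnitVal (q := q) (τ := τ)) :=
  fun _ _ h => Subtype.ext (Units.ext (Subtype.ext h))

theorem norm_locUnitVal (u : locUnits q (locField q τ)) : ‖locUnitVal u‖ = 1 := u.2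

theorem locUnitVal_smul (d : decompGroup q k τ) (u : locUnits q (locField q τ)) :
    locUnitVal (d • u) = decompLift q k τ d (locUnitVal u) := rfl

/-- A local unit as an element of `K_w` in C3's presentation. -/
def locUnitToExt (u : locUnits q (locField q τ)) : locExt q k τ :=
  ⟨locUnitVal u, ((u : (locField q τ)ˣ) : locField q τ).2⟩

/-- An element of `K_w` of norm one as a local unit. -/
def extToLocUnit (v : locExt q k τ) (hv : ‖(v : PadicAlgCl q)‖ = 1) :
    locUnits q (locField q τ) :=
  ⟨Units.mk0 (⟨(v : PadicAlgCl q), v.2⟩ : locField q τ) (fun h => by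
    have h0 : (v : PadicAlgCl q) = 0 := congrArg Subtype.val h
    rw [h0, norm_zero] at hv
    exact zero_ne_one hv), hv⟩

theorem locUnitVal_extToLocUnit (v : locExt q k τ) (hv : ‖(v : PadicAlgCl q)‖ = 1) :
    locUnitVal (extToLocUnit q k τ v hv) = (v : PadicAlgCl q) := rfl

section Galois

variable [FiniteDimensional k K] [Normal k K] [FiniteDimensional ℚ_[q] (locBase q k τ)]

instance finiteDimensional_locExt' : FiniteDimensional (locBase q k τ) (locExt q k τ) :=
  H20.finiteDimensional_extendScalars q k τ

instance isGalois_locExt' : IsGalois (locBase q k τ) (locExt q k τ) where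

omit [FiniteDimensional ℚ_[q] (locBase q k τ)] in
/-- The norm of `K_w / k_v` as a product over the decomposition group. -/
theorem coe_algebraMap_norm_locExt [Fintype (decompGroup q k τ)] (z : locExt q k τ) :
    ((algebraMap (locBase q k τ) (locExt q k τ) (Algebra.norm (locBase q k τ) z) :
      locExt q k τ) : PadicAlgCl q)
      = ∏ d : decompGroup q k τ, decompLift q k τ d (z : PadicAlgCl q) := by
  rw [Algebra.norm_eq_prod_automorphisms]
  have h1 := Fintype.prod_bijective (decompToGal q k τ)
    ⟨decompToGal_injective q k τ, decompToGal_surjective q k τ⟩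
    (fun d => decompToGal q k τ d z) (fun σ => σ z) (fun d => rfl)
  rw [← h1]
  show (algebraMap (locExt q k τ) (PadicAlgCl q)) (∏ d : decompGroup q k τ,
    decompToGal q k τ d z) = _
  rw [map_prod]
  rfl

/-- Hilbert 90 for the local units of an unramified completion. -/
theorem locUnits_h90 [Fintype (decompGroup q k τ)]
    (hU : IsUnram q (locBase q k τ) (locExt q k τ))
    (d₀ : decompGroup q k τ)
    (hgen : ∀ α : locExt q k τ ≃ₐ[locBase q k τ] locExt q k τ,
      α ∈ Subgroup.zpowers (decompToGal q k τ d₀))
    (u : locUnits q (locField q τ)) (hu : ∏ d : decompGroup q k τ, d • u = 1) :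
    ∃ v : locUnits q (locField q τ), u * v = d₀ • v := by
  have h1 : nrm q (locUnitToExt q k τ u) = 1 := u.2
  have h2 : Algebra.norm (locBase q k τ) (locUnitToExt q k τ u) = 1 := by
    apply (algebraMap (locBase q k τ) (locExt q k τ)).injective
    apply Subtype.ext
    rw [coe_algebraMap_norm_locExt, map_one]
    have h3 := congrArg (locUnitVal (q := q) (τ := τ)) hu
    rw [map_prod, map_one] at h3
    exact h3
  obtain ⟨v, hv1, hv2⟩ := leafUnitH90 q (locBase q k τ) (locExt q k τ) hU
    (decompToGal q k τ d₀) hgen (locUnitToExt q k τ u) h1 h2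
  refine ⟨extToLocUnit q k τ v hv1, ?_⟩
  apply locUnitVal_injective
  exact congrArg (fun z : locExt q k τ => (z : PadicAlgCl q)) hv2

/-- Invariant local units of an unramified completion are norms of local units. -/
theorem locUnits_norm [Fintype (decompGroup q k τ)]
    (hU : IsUnram q (locBase q k τ) (locExt q k τ))
    (a : locUnits q (locField q τ)) (ha : ∀ d : decompGroup q k τ, d • a = a) :
    ∃ b : locUnits q (locField q τ), ∏ d : decompGroup q k τ, d • b = a := by
  have hfix : ∀ α : locExt q k τ ≃ₐ[locBase q k τ] locExt q k τ,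
      α (locUnitToExt q k τ a) = locUnitToExt q k τ a := by
    intro α
    obtain ⟨d, rfl⟩ := decompToGal_surjective q k τ α
    apply Subtype.ext
    exact congrArg (locUnitVal (q := q) (τ := τ)) (ha d)
  obtain ⟨aF, haF⟩ := (IsGalois.mem_range_algebraMap_iff_fixed
    (F := locBase q k τ) (E := locExt q k τ) (locUnitToExt q k τ a)).2 hfix
  have h1 : nrm q aF = 1 := by
    have h2 : ((algebraMap (locBase q k τ) (locExt q k τ) aF : locExt q k τ) : PadicAlgCl q)
        = locUnitVal a := congrArg (fun z : locExt q k τ => (z : PadicAlgCl q)) haF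
    have h3 : nrm q aF = ‖((algebraMap (locBase q k τ) (locExt q k τ) aF : locExt q k τ) :
        PadicAlgCl q)‖ := rfl
    rw [h3, h2]
    exact a.2
  obtain ⟨v, hv1, hv2⟩ := leafUnitNorm_holds q (locBase q k τ) (locExt q k τ) hU aF h1
  refine ⟨extToLocUnit q k τ v hv1, ?_⟩
  apply locUnitVal_injective
  rw [map_prod]
  have h4 := coe_algebraMap_norm_locExt q k τ v
  rw [hv2, haF] at h4
  exact h4.symm

/-- **Local vanishing**: for an unramified completion `K_w / k_v` the local units have trivial
`H¹` and `H²` as a module over the decomposition group. -/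
theorem locUnitGroup_isZero
    (hunr : ∀ x : PadicAlgCl q, x ∈ locField q τ → ∃ y ∈ locBase q k τ, ‖x‖ = ‖y‖)
    (n : ℕ) (hn : n = 1 ∨ n = 2) :
    Limits.IsZero (groupCohomology (locUnitGroupRep q k τ) n) := by
  classical
  have hU : IsUnram q (locBase q k τ) (locExt q k τ) := fun x => by
    obtain ⟨y, hy, hxy⟩ := hunr (x : PadicAlgCl q) x.2
    exact ⟨⟨y, hy⟩, hxy⟩
  obtain ⟨φ, -, -, hφ⟩ := H63.leafFrob q (locBase q k τ) (locExt q k τ) hU
  obtain ⟨d₀, hd₀⟩ := decompToGal_surjective q k τ φ
  have hgenL : ∀ α : locExt q k τ ≃ₐ[locBase q k τ] locExt q k τ,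
      α ∈ Subgroup.zpowers (decompToGal q k τ d₀) := by
    intro α
    rw [hd₀]
    exact hφ α
  have hgen : ∀ d : decompGroup q k τ, d ∈ Subgroup.zpowers d₀ := by
    intro d
    obtain ⟨m, hm⟩ := Subgroup.mem_zpowers_iff.1 (hgenL (decompToGal q k τ d))
    refine Subgroup.mem_zpowers_iff.2 ⟨m, decompToGal_injective q k τ ?_⟩
    rw [map_zpow, hm]
  have : Fintype (decompGroup q k τ) := Fintype.ofFinite _
  rcases hn with rfl | rfl
  · exact isZero_H1_of_mulCoboundary fun f hf =>
      isMulCoboundary₁_of_generator d₀ hgen (locUnits_h90 q k τ hU d₀ hgenL) f hf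
  · exact isZero_H2_of_generator d₀ hgen (locUnits_norm q k τ hU)

end Galois

end Local

/-- **C5 leaf D2** (`H88.UnramifiedUnitsStatement`): at a prime `q` unramified in the finite
normal extension `K / k` of number fields, the semi-local units at `q` have trivial `H¹` and
`H²`. -/
theorem unramifiedUnitsStatement (k K : Type) [Field k] [Field K] [Algebra k K] [NumberField k]
    [FiniteDimensional k K] [Normal k K] : UnramifiedUnitsStatement q k K := by
  intro hunr n hn
  refine semiLocalUnits_isZero q k K n hn fun τ => ?_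
  have : FiniteDimensional ℚ_[q] (locBase q k τ) :=
    locFieldFiniteStatement_holds q k (τ.comp (algebraMap k K))
  exact locUnitGroup_isZero q k τ (fun x hx => hunr τ x hx) n hn

end Fermat.Agent.S55.H31
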