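/-
S55, package C8 (B4), leaf (J5) — helper31.

Restriction from `Gal(L/k)` to `Gal(L/K)` multiplies the local invariants of idele classes by the
local degree: for a tower `k ⊆ K ⊆ L` of number fields, `L / k` normal, and an embedding
`τ : L → PadicAlgCl q`,

  `jinvAt K q τ (res x) = [K_w : k_v] • jinvAt k q τ x`      (`x ∈ H²(Gal(L/k), J_L)`),

in the vocabulary of `H29/C8Idele.lean` (`jinvAt`, `ideleToLoc`, `subGal`, `ideleSub`).
The proof is helper83's proof of the analogous statement for `Lˣ` (`H83.res_key`,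
`H83.linvAt_res`) with `H29.ideleToLoc` in place of `H88.globalToLocUnits`.
-/
import Mathlib
import Fermat.Agent.S55.H29.C8Idele
import Fermat.Agent.S55.H76.InvResFinal
import Fermat.Agent.S55.H83.SubTowerCompat

set_option autoImplicit false
set_option linter.style.haveILetI false
set_option linter.unusedSectionVars false

open CategoryTheory

noncomputable section

namespace Fermat.Agent.S55.H31

open Fermat.Agent.S55.H88 Fermat.Agent.S55.H66 Fermat.Agent.S55.H20 Fermat.Agent.S55.H83

attribute [local instance] factOfPrimes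

section Res

variable (k K L : Type) [Field k] [Field K] [Field L] [Algebra k K] [Algebra K L] [Algebra k L]
  [IsScalarTower k K L] [Normal k L] [NumberField k] [NumberField K] [NumberField L]

/-- The square `transport ∘ loc_K ∘ res = res_loc ∘ loc_k` on `H²` of the ideles. -/
theorem jres_key [Normal K L] (q : Nat.Primes) (τ : L →+* PadicAlgCl (q : ℕ))
    (M : IntermediateField (locBase (q : ℕ) k τ) (PadicAlgCl (q : ℕ)))
    (hME : M ≤ locExt (q : ℕ) k τ)
    (e : locBase (q : ℕ) K τ ≃+* M)
    (he : IsCompat (q := (q : ℕ))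
      (AlgEquiv.refl : PadicAlgCl (q : ℕ) ≃ₐ[ℚ_[(q : ℕ)]] PadicAlgCl (q : ℕ)) e)
    (hL : IsImage (q := (q : ℕ))
      (AlgEquiv.refl : PadicAlgCl (q : ℕ) ≃ₐ[ℚ_[(q : ℕ)]] PadicAlgCl (q : ℕ))
      (locExt (q : ℕ) K τ) (IntermediateField.extendScalars hME))
    (x : groupCohomology (ideleRep k L) 2) :
    (transH2 he hL).hom
        ((groupCohomology.map (locGalToGlobal (q : ℕ) K τ) (H29.ideleToLoc K q τ) 2).hom
          ((groupCohomology.map (H29.subGal k K L) (H29.ideleSub k K L) 2).hom x))
      = (H66.resH2 hME).hom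
          ((groupCohomology.map (locGalToGlobal (q : ℕ) k τ) (H29.ideleToLoc k q τ) 2).hom x) := by
  have hfg : (H29.subGal k K L).comp ((locGalToGlobal (q : ℕ) K τ).comp (galMap he hL))
      = (locGalToGlobal (q : ℕ) k τ).comp (upHom hME) := by
    refine MonoidHom.ext fun β => AlgEquiv.ext fun y => τ.injective ?_
    have h1 := congrArg (fun z : locExt (q : ℕ) K τ => (z : PadicAlgCl (q : ℕ)))
      (locGalToGlobal_spec (q : ℕ) K τ (galMap he hL β) y)
    have h2 := coe_galMap he hL β (locExtEmb (q : ℕ) K τ y)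
    have h3 := congrArg (fun z : locExt (q : ℕ) k τ => (z : PadicAlgCl (q : ℕ)))
      (locGalToGlobal_spec (q : ℕ) k τ (upHom hME β) y)
    have h4 : fieldEquiv hL (locExtEmb (q : ℕ) K τ y)
        = (upEquiv hME).symm (locExtEmb (q : ℕ) k τ y) :=
      Subtype.ext (upEquiv_symm_apply_coe hME (locExtEmb (q : ℕ) k τ y)).symm
    have h5 : τ (locGalToGlobal (q : ℕ) K τ (galMap he hL β) y)
        = τ (locGalToGlobal (q : ℕ) k τ (upHom hME β) y) := by
      refine h1.symm.trans (Eq.trans ?_ h3)
      refine h2.trans ?_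
      rw [h4]
      rfl
    exact h5
  have c1 := groupCohomology.map_comp (locGalToGlobal (q : ℕ) K τ) (galMap he hL)
    (H29.ideleToLoc K q τ) (transRep he hL) 2
  have c2 := groupCohomology.map_comp (H29.subGal k K L)
    ((locGalToGlobal (q : ℕ) K τ).comp (galMap he hL)) (H29.ideleSub k K L)
    ((Rep.resFunctor (galMap he hL)).map (H29.ideleToLoc K q τ) ≫ transRep he hL) 2
  have d := groupCohomology.map_comp (locGalToGlobal (q : ℕ) k τ) (upHom hME)
    (H29.ideleToLoc k q τ) (upRep hME) 2
  have hmid := groupCohomology.map_congr (A := ideleRep k L)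
    (B := Rep.ofAlgebraAutOnUnits M (IntermediateField.extendScalars hME))
    (f := (H29.subGal k K L).comp ((locGalToGlobal (q : ℕ) K τ).comp (galMap he hL)))
    (g := (locGalToGlobal (q : ℕ) k τ).comp (upHom hME))
    (φ := (Rep.resFunctor ((locGalToGlobal (q : ℕ) K τ).comp (galMap he hL))).map
        (H29.ideleSub k K L) ≫
      ((Rep.resFunctor (galMap he hL)).map (H29.ideleToLoc K q τ) ≫ transRep he hL))
    (ψ := (Rep.resFunctor (upHom hME)).map (H29.ideleToLoc k q τ) ≫ upRep hME) hfg
    (LinearMap.ext fun y => congrArg Additive.ofMul (Units.ext (Subtype.ext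
      (upEquiv_symm_apply_coe hME (semiLocalEvalExt (q : ℕ) k τ
        ((((Additive.toMul (α := ideleGroup L) y : ideleGroup L) :
          ∀ q : Nat.Primes, (semiLocal (q : ℕ) L)ˣ) q : (semiLocal (q : ℕ) L)ˣ) :
            semiLocal (q : ℕ) L))).symm))) 2
  have s1 := congrArg (fun f => f.hom
    ((groupCohomology.map (H29.subGal k K L) (H29.ideleSub k K L) 2).hom x)) c1
  have s2 := congrArg (fun f => f.hom x) c2
  have s4 := congrArg (fun f => f.hom x) hmid
  have s5 := congrArg (fun f => f.hom x) d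
  exact s1.symm.trans (s2.symm.trans (s4.trans s5))

/-- **(J5), embedding form.**  Restriction to `Gal(L/K)` multiplies the local invariant at `τ` of
an idele class by the local degree `[K_w : k_v]`. -/
theorem jinvAt_sub (q : Nat.Primes) (τ : L →+* PadicAlgCl (q : ℕ))
    (x : groupCohomology (ideleRep k L) 2) :
    haveI : Normal K L := Normal.tower_top_of_normal k K L
    H29.jinvAt K q τ ((groupCohomology.map (H29.subGal k K L) (H29.ideleSub k K L) 2).hom x)
      = Module.finrank (locBase (q : ℕ) k (τ.comp (algebraMap K L)))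
          (locExt (q : ℕ) k (τ.comp (algebraMap K L))) • H29.jinvAt k q τ x := by
  haveI : Normal K L := Normal.tower_top_of_normal k K L
  set τK : K →+* PadicAlgCl (q : ℕ) := τ.comp (algebraMap K L) with hτK
  have hB : locBase (q : ℕ) k τ = locBase (q : ℕ) k τK :=
    locBase_comp_algebraMap' (q : ℕ) k L τ
  have hFle : locBase (q : ℕ) k τ ≤ locField (q : ℕ) τK := hB ▸ locBase_le (q : ℕ) k τK
  let M : IntermediateField (locBase (q : ℕ) k τ) (PadicAlgCl (q : ℕ)) :=
    IntermediateField.extendScalars hFle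
  have hMmem : ∀ z, z ∈ M ↔ z ∈ locField (q : ℕ) τK := fun z => Iff.rfl
  have hME : M ≤ locExt (q : ℕ) k τ := locField_comp_le (q : ℕ) K L τ
  haveI : FiniteDimensional (locBase (q : ℕ) k τ) M :=
    finiteDimensional_of_mem_iff (q : ℕ) _ M (locField (q : ℕ) τK) hMmem
  haveI : FiniteDimensional (locBase (q : ℕ) k τ) (locExt (q : ℕ) k τ) :=
    finiteDimensional_of_mem_iff (q : ℕ) _ _ (locField (q : ℕ) τ) (fun _ => Iff.rfl)
  haveI : IsGalois (locBase (q : ℕ) k τ) (locExt (q : ℕ) k τ) := isGalois_of_normal (q : ℕ) _ _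
  haveI : FiniteDimensional M (IntermediateField.extendScalars hME) :=
    finiteDimensional_up (q : ℕ) hME
  haveI : IsGalois M (IntermediateField.extendScalars hME) := isGalois_up (q : ℕ) hME
  -- the two presentations of `L_w / K_w`
  let e : locBase (q : ℕ) K τ ≃+* M :=
    { toFun := fun x => ⟨x.1, x.2⟩
      invFun := fun y => ⟨y.1, y.2⟩
      left_inv := fun _ => rfl
      right_inv := fun _ => rfl
      map_mul' := fun _ _ => rfl
      map_add' := fun _ _ => rfl }
  have he : IsCompat (q := (q : ℕ))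
      (AlgEquiv.refl : PadicAlgCl (q : ℕ) ≃ₐ[ℚ_[(q : ℕ)]] PadicAlgCl (q : ℕ)) e :=
    fun x => rfl
  have hL : IsImage (q := (q : ℕ))
      (AlgEquiv.refl : PadicAlgCl (q : ℕ) ≃ₐ[ℚ_[(q : ℕ)]] PadicAlgCl (q : ℕ))
      (locExt (q : ℕ) K τ) (IntermediateField.extendScalars hME) := fun x => Iff.rfl
  haveI : FiniteDimensional (locBase (q : ℕ) K τ) (locExt (q : ℕ) K τ) :=
    finiteDimensional_of_mem_iff (q : ℕ) _ _ (locField (q : ℕ) τ) (fun _ => Iff.rfl)
  haveI : IsGalois (locBase (q : ℕ) K τ) (locExt (q : ℕ) K τ) := isGalois_of_normal (q : ℕ) _ _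
  have hT := inv_transH2 he hL
    ((groupCohomology.map (locGalToGlobal (q : ℕ) K τ) (H29.ideleToLoc K q τ) 2).hom
      ((groupCohomology.map (H29.subGal k K L) (H29.ideleSub k K L) 2).hom x))
  have hR := H76.leafInvRes_holds (q : ℕ) (locBase (q : ℕ) k τ) M (locExt (q : ℕ) k τ) hME
    ((groupCohomology.map (locGalToGlobal (q : ℕ) k τ) (H29.ideleToLoc k q τ) 2).hom x)
  have hdeg : Module.finrank (locBase (q : ℕ) k τ) M
      = Module.finrank (locBase (q : ℕ) k τK) (locExt (q : ℕ) k τK) :=
    finrank_eq_of_pres (q : ℕ) k τK (locBase (q : ℕ) k τ) hB M hMmem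
  have key := jres_key k K L q τ M hME e he hL x
  refine Eq.trans (b := H66.inv (q : ℕ) (IntermediateField.extendScalars hME)
    ((transH2 he hL).hom
      ((groupCohomology.map (locGalToGlobal (q : ℕ) K τ) (H29.ideleToLoc K q τ) 2).hom
        ((groupCohomology.map (H29.subGal k K L) (H29.ideleSub k K L) 2).hom x)))) hT.symm ?_
  rw [key, hR, hdeg]
  rfl

end Res

end Fermat.Agent.S55.H31
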