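/-
S55, package C8 (B4), leaf (J-INDEP) — helper31.

THE LOCAL INVARIANT `H29.jinvAt k q τ'` OF AN IDELE CLASS DEPENDS ONLY ON THE PLACE OF `k`
BELOW `τ'` (the analogue for `J_K` of helper20's `H20.linvIndep`).

If `τ'' ∘ s = g ∘ τ'` with `g ∈ Aut(Ω/ℚ_q)` and `s ∈ Gal(K/k)` then the localisation map of
`H²(Gal(K/k), J_K)` at `τ''` is the localisation map at `τ'` followed by the transport along `g`
(`locJ2_conj`: inner automorphisms act trivially on `H²`, and semi-local elements are
`Aut(Ω/ℚ_q)`-equivariant), and the local invariant is invariant under transport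
(`H20.inv_transH2`).
-/
import Mathlib
import Fermat.Agent.S55.H29.C8Idele
import Fermat.Agent.S55.H20.LinvIndep

set_option autoImplicit false

open CategoryTheory

noncomputable section

namespace Fermat.Agent.S55.H31

open Fermat.Agent.S55.H66 Fermat.Agent.S55.H88 Fermat.Agent.S55.H20

attribute [local instance] factOfPrimes

section Setup

variable (k : Type) {K : Type} [Field k] [Field K] [Algebra k K] [Normal k K] (q : Nat.Primes)
variable {τ' τ'' : K →+* PadicAlgCl (q : ℕ)}
  {g : PadicAlgCl (q : ℕ) ≃ₐ[ℚ_[(q : ℕ)]] PadicAlgCl (q : ℕ)} {s : K ≃ₐ[k] K}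

/-- **The localisation maps of idele classes at conjugate embeddings** differ by the transport
along `g`. -/
theorem locJ2_conj (h : ∀ x : K, τ'' (s x) = g (τ' x)) :
    groupCohomology.map (locGalToGlobal (q : ℕ) k τ'') (H29.ideleToLoc k q τ'') 2 =
      groupCohomology.map (locGalToGlobal (q : ℕ) k τ') (H29.ideleToLoc k q τ') 2 ≫
        transH2 (isCompat_locBase k h) (isImage_locExt k h) := by
  have hτ : τ'' = ((g : PadicAlgCl (q : ℕ) →+* PadicAlgCl (q : ℕ))).comp
      (τ'.comp (((s⁻¹ : K ≃ₐ[k] K) : K ≃+* K) : K →+* K)) := by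
    refine RingHom.ext fun x => ?_
    show τ'' x = g (τ' (s⁻¹ x))
    rw [← h]
    exact (congrArg τ'' (s.apply_symm_apply x)).symm
  have key : groupCohomology.map (locGalToGlobal (q : ℕ) k τ'') (H29.ideleToLoc k q τ'') 2 =
      groupCohomology.map ((conjHom s).comp ((locGalToGlobal (q : ℕ) k τ').comp
          (galMap (isCompat_locBase k h) (isImage_locExt k h))))
        ((Rep.resFunctor ((locGalToGlobal (q : ℕ) k τ').comp
            (galMap (isCompat_locBase k h) (isImage_locExt k h)))).map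
              (conjRepHom (ideleRep k K) s) ≫
          ((Rep.resFunctor (galMap (isCompat_locBase k h) (isImage_locExt k h))).map
              (H29.ideleToLoc k q τ') ≫
            transRep (isCompat_locBase k h) (isImage_locExt k h))) 2 := by
    refine groupCohomology.map_congr (locGalToGlobal_conj k h) ?_ 2
    refine LinearMap.ext fun u => ?_
    refine congrArg Additive.ofMul (Units.ext (Subtype.ext ?_))
    show (((((Additive.toMul (α := ideleGroup K) u : ideleGroup K) :
          ∀ q : Nat.Primes, (semiLocal (q : ℕ) K)ˣ) q : (semiLocal (q : ℕ) K)ˣ) :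
            semiLocal (q : ℕ) K) : (K →+* PadicAlgCl (q : ℕ)) → PadicAlgCl (q : ℕ)) τ''
      = g ((((((Additive.toMul (α := ideleGroup K) u : ideleGroup K) :
          ∀ q : Nat.Primes, (semiLocal (q : ℕ) K)ˣ) q : (semiLocal (q : ℕ) K)ˣ) :
            semiLocal (q : ℕ) K) : (K →+* PadicAlgCl (q : ℕ)) → PadicAlgCl (q : ℕ))
              (τ'.comp (((s⁻¹ : K ≃ₐ[k] K) : K ≃+* K) : K →+* K)))
    rw [← semiLocal_apply_comp, ← hτ]
  rw [key, groupCohomology.map_comp, map_conj_H2, Category.id_comp, groupCohomology.map_comp]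
  rfl

end Setup

section Main

variable (k : Type) {K : Type} [Field k] [NumberField k] [Field K] [Algebra k K]
  [FiniteDimensional k K] [Normal k K] (q : Nat.Primes)
variable {τ' τ'' : K →+* PadicAlgCl (q : ℕ)}
  {g : PadicAlgCl (q : ℕ) ≃ₐ[ℚ_[(q : ℕ)]] PadicAlgCl (q : ℕ)} {s : K ≃ₐ[k] K}

/-- **(J-INDEP), explicit form.** -/
theorem jinvAt_eq_of_conj (h : ∀ x : K, τ'' (s x) = g (τ' x)) :
    H29.jinvAt k q τ'' = H29.jinvAt k q τ' := by
  refine AddMonoidHom.ext fun x => ?_
  show H66.inv (q : ℕ) (locExt (q : ℕ) k τ'')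
      ((groupCohomology.map (locGalToGlobal (q : ℕ) k τ'') (H29.ideleToLoc k q τ'') 2).hom x) =
    H66.inv (q : ℕ) (locExt (q : ℕ) k τ')
      ((groupCohomology.map (locGalToGlobal (q : ℕ) k τ') (H29.ideleToLoc k q τ') 2).hom x)
  rw [locJ2_conj k q h]
  exact inv_transH2 (isCompat_locBase k h) (isImage_locExt k h) _

end Main

/-- **(J-INDEP)**: the local invariant of an idele class at an embedding `τ'` of `K` depends only
on the place of `k` below `τ'` (same shape as `H88.LinvIndepStatement`). -/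
theorem jinvIndep (k K : Type) [Field k] [NumberField k] [Field K] [Algebra k K]
    [FiniteDimensional k K] [Normal k K] (q : Nat.Primes) (τ' τ'' : K →+* PadicAlgCl (q : ℕ))
    (hrel : (placeSetoid (q : ℕ) k).r (τ'.comp (algebraMap k K)) (τ''.comp (algebraMap k K))) :
    H29.jinvAt k q τ' = H29.jinvAt k q τ'' := by
  obtain ⟨g, hg⟩ := hrel
  have h0 : τ''.comp (algebraMap k K) =
      ((g : PadicAlgCl (q : ℕ) →+* PadicAlgCl (q : ℕ)).comp τ').comp (algebraMap k K) := by
    rw [hg]; rfl
  obtain ⟨s, hs⟩ := exists_algEquiv_comp_eq (q : ℕ) τ''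
    ((g : PadicAlgCl (q : ℕ) →+* PadicAlgCl (q : ℕ)).comp τ') h0
  have h : ∀ x : K, τ'' (s x) = g (τ' x) := fun x => (RingHom.congr_fun hs x).symm
  exact (jinvAt_eq_of_conj k q h).symm

/-- **(J-INDEP), place form**: at any embedding of `K` above the finite place `v` of `k`, the
local invariant of an idele class is `H29.jinv k K v`. -/
theorem jinvAt_eq_jinv (k K : Type) [Field k] [NumberField k] [Field K] [Algebra k K]
    [FiniteDimensional k K] [Normal k K] (v : FinPlace k) (τ' : K →+* PadicAlgCl (v.1 : ℕ))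
    (hτ : (placeSetoid (v.1 : ℕ) k).r (τ'.comp (algebraMap k K)) v.emb) :
    H29.jinvAt k v.1 τ' = H29.jinv k K v := by
  refine jinvIndep k K v.1 τ' (v.ext K) ?_
  rw [FinPlace.ext_comp K v]
  exact hτ

end Fermat.Agent.S55.H31
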