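/-
Program C (S55), package C8 (reciprocity, designer helper29), sub-leaf R3b of the CYCREC chain:
WEAK APPROXIMATION FOR NORMS.

`k ⊆ E` a finite Galois extension of number fields, `T` a finite set of primes, `a ∈ kˣ` a local
norm from `E_w` at every place above the primes of `T`.  Then there is `b ∈ Eˣ` such that
`a / N_{E/k}(b)` is a one-unit at every embedding `k →+* PadicAlgCl q`, `q ∈ T`
(`exists_norm_oneUnit`).

Route: for each `q`, a semi-local unit `β ∈ (E ⊗ ℚ_q)ˣ` with `N β = a` is glued from local data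
(`exists_semiLocalUnit_norm`, on `SemiLocalGlue.lean`); `β` is approximated by a global element
(`H10.semiLocalDense_finset`); the norm of a global element is the product of its conjugates
(`Algebra.norm_eq_prod_automorphisms`).
-/
import Fermat.Agent.S55.H31.UnramUnits
import Fermat.Agent.S55.H10.SemiLocalDenseFin

set_option autoImplicit false
set_option linter.unusedVariables false

noncomputable section

namespace Fermat.Agent.S55.H31

open Fermat.Agent.S55.H88 Fermat.Agent.S55.H66 CategoryTheory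

section OneUnits

variable {q : ℕ} [Fact q.Prime]

/-- A product of one-units of `PadicAlgCl q` is a one-unit. -/
theorem norm_prod_sub_one_lt {ι : Type*} (s : Finset ι) (w : ι → PadicAlgCl q)
    (h : ∀ i ∈ s, ‖w i - 1‖ < 1) : ‖∏ i ∈ s, w i - 1‖ < 1 := by
  classical
  induction s using Finset.induction_on with
  | empty => simp
  | insert a s ha ih =>
    rw [Finset.prod_insert ha]
    have h1 : ‖w a - 1‖ < 1 := h a (Finset.mem_insert_self a s)
    have h2 : ‖∏ i ∈ s, w i - 1‖ < 1 := ih fun i hi => h i (Finset.mem_insert_of_mem hi)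
    have h3 : ‖∏ i ∈ s, w i‖ ≤ 1 := by
      have h4 : ∏ i ∈ s, w i = (∏ i ∈ s, w i - 1) + 1 := by ring
      rw [h4]
      refine (IsUltrametricDist.norm_add_le_max _ _).trans ?_
      rw [norm_one]
      exact max_le h2.le le_rfl
    have h5 : w a * ∏ i ∈ s, w i - 1 = (w a - 1) * ∏ i ∈ s, w i + (∏ i ∈ s, w i - 1) := by ring
    rw [h5]
    refine (IsUltrametricDist.norm_add_le_max _ _).trans_lt (max_lt ?_ h2)
    rw [norm_mul]
    calc ‖w a - 1‖ * ‖∏ i ∈ s, w i‖ ≤ ‖w a - 1‖ * 1 :=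
          mul_le_mul_of_nonneg_left h3 (norm_nonneg _)
      _ < 1 := by rw [mul_one]; exact h1

/-- The inverse of a one-unit is a one-unit. -/
theorem norm_inv_sub_one_lt {w : PadicAlgCl q} (h : ‖w - 1‖ < 1) : ‖w⁻¹ - 1‖ < 1 := by
  have hw1 : ‖w‖ = 1 := by
    have h1 : w = (w - 1) + 1 := by ring
    have h2 : ‖(w - 1) + 1‖ = max ‖w - 1‖ ‖(1 : PadicAlgCl q)‖ :=
      IsUltrametricDist.norm_add_eq_max_of_norm_ne_norm (by rw [norm_one]; exact h.ne)
    rw [h1, h2, norm_one]
    exact max_eq_right h.le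
  have hw0 : w ≠ 0 := fun h0 => by rw [h0, norm_zero] at hw1; exact zero_ne_one hw1
  have h3 : w⁻¹ - 1 = (1 - w) * w⁻¹ := by field_simp
  rw [h3, norm_mul, norm_inv, hw1, inv_one, mul_one, norm_sub_rev]
  exact h

end OneUnits

section Single

variable (q : ℕ) [Fact q.Prime] (k E : Type) [Field k] [Field E] [Algebra k E]

open Classical in
/-- **A semi-local unit with prescribed norm**: if `a ∈ k`, `a ≠ 0`, is a norm from the
completion `E_w` at every embedding of `E` into `PadicAlgCl q`, there is a unit `β` of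
`E ⊗ ℚ_q` all of whose norms `∏_σ β(τ' ∘ σ)` are `τ' a`. -/
theorem exists_semiLocalUnit_norm [FiniteDimensional k E] [Normal k E] (a : k) (ha : a ≠ 0)
    (hloc : ∀ τ' : E →+* PadicAlgCl q, ∃ y : locExt q k τ',
      ((algebraMap (locBase q k τ') (locExt q k τ') (Algebra.norm (locBase q k τ') y) :
        locExt q k τ') : PadicAlgCl q) = τ' (algebraMap k E a)) :
    ∃ β : (semiLocal q E)ˣ, ∀ τ' : E →+* PadicAlgCl q,
      ∏ σ : E ≃ₐ[k] E, ((β : semiLocal q E) : (E →+* PadicAlgCl q) → PadicAlgCl q)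
        (τ'.comp ((σ : E ≃+* E) : E →+* E)) = τ' (algebraMap k E a) := by
  choose y hy using fun i : DblOrbit q k E => hloc i.emb
  have hy0 : ∀ i : DblOrbit q k E, ((y i : locExt q k i.emb) : PadicAlgCl q) ≠ 0 := by
    intro i h0
    have h2 := hy i
    rw [coe_algebraMap_norm_locExt q k i.emb (y i),
      Finset.prod_eq_zero (Finset.mem_univ (1 : decompGroup q k i.emb))
        (by rw [h0, map_zero])] at h2
    have h3 : i.emb (algebraMap k E a) = 0 := h2.symm
    rw [map_eq_zero, map_eq_zero] at h3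
    exact ha h3
  let u : ∀ i : DblOrbit q k E, (locField q i.emb)ˣ := fun i =>
    Units.mk0 (⟨((y i : locExt q k i.emb) : PadicAlgCl q), (y i).2⟩ : locField q i.emb)
      (fun h => hy0 i (congrArg Subtype.val h))
  let F : ∀ i : DblOrbit q k E, (E ≃ₐ[k] E) → (locField q i.emb)ˣ := fun i x =>
    if h : x ∈ decompGroup q k i.emb then (⟨x, h⟩ : decompGroup q k i.emb) • u i else 1
  have hF : ∀ (i : DblOrbit q k E) (d : decompGroup q k i.emb) (x : E ≃ₐ[k] E),
      F i ((d : E ≃ₐ[k] E) * x) = d • F i x := by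
    intro i d x
    by_cases hx : x ∈ decompGroup q k i.emb
    · have hdx : (d : E ≃ₐ[k] E) * x ∈ decompGroup q k i.emb := mul_mem d.2 hx
      show (if h : (d : E ≃ₐ[k] E) * x ∈ decompGroup q k i.emb then
          (⟨(d : E ≃ₐ[k] E) * x, h⟩ : decompGroup q k i.emb) • u i else 1)
        = d • (if h : x ∈ decompGroup q k i.emb then
          (⟨x, h⟩ : decompGroup q k i.emb) • u i else 1)
      rw [dif_pos hdx, dif_pos hx, ← mul_smul]
      rfl
    · have hdx : ¬ (d : E ≃ₐ[k] E) * x ∈ decompGroup q k i.emb := fun h =>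
        hx ((Subgroup.mul_mem_cancel_left _ d.2).1 h)
      show (if h : (d : E ≃ₐ[k] E) * x ∈ decompGroup q k i.emb then
          (⟨(d : E ≃ₐ[k] E) * x, h⟩ : decompGroup q k i.emb) • u i else 1)
        = d • (if h : x ∈ decompGroup q k i.emb then
          (⟨x, h⟩ : decompGroup q k i.emb) • u i else 1)
      rw [dif_neg hdx, dif_neg hx, smul_one]
  obtain ⟨β, hβ⟩ := exists_semiLocalUnit_glue q k E F hF
  refine ⟨β, fun τ' => ?_⟩
  obtain ⟨g, x₀, hgx⟩ := exists_dbl_rep q k E τ'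
  -- the values of `β` along the orbit of `τ'`
  have h1 : ∀ σ : E ≃ₐ[k] E,
      ((β : semiLocal q E) : (E →+* PadicAlgCl q) → PadicAlgCl q)
        (τ'.comp ((σ : E ≃+* E) : E →+* E))
        = g (((F (dblOf q k E τ') (x₀ * σ) : (locField q (DblOrbit.emb (dblOf q k E τ')))ˣ) :
            locField q (DblOrbit.emb (dblOf q k E τ'))) : PadicAlgCl q) := by
    intro σ
    have hτ : τ'.comp ((σ : E ≃+* E) : E →+* E) = (g : PadicAlgCl q →+* PadicAlgCl q).comp
        ((DblOrbit.emb (dblOf q k E τ')).comp (((x₀ * σ : E ≃ₐ[k] E) : E ≃+* E) : E →+* E)) :=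
      RingHom.ext fun z => hgx (σ z)
    rw [hτ, (β : semiLocal q E).2 g, hβ]
  simp_rw [h1]
  rw [← map_prod]
  -- reindex and collapse to the decomposition group
  have h2 : ∏ σ : E ≃ₐ[k] E,
      (((F (dblOf q k E τ') (x₀ * σ) : (locField q (DblOrbit.emb (dblOf q k E τ')))ˣ) :
        locField q (DblOrbit.emb (dblOf q k E τ'))) : PadicAlgCl q)
      = ∏ σ : E ≃ₐ[k] E,
      (((F (dblOf q k E τ') σ : (locField q (DblOrbit.emb (dblOf q k E τ')))ˣ) :
        locField q (DblOrbit.emb (dblOf q k E τ'))) : PadicAlgCl q) :=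
    Fintype.prod_equiv (Equiv.mulLeft x₀) _ _ (fun σ => rfl)
  have h3 : ∏ σ : E ≃ₐ[k] E,
      (((F (dblOf q k E τ') σ : (locField q (DblOrbit.emb (dblOf q k E τ')))ˣ) :
        locField q (DblOrbit.emb (dblOf q k E τ'))) : PadicAlgCl q)
      = ∏ d : decompGroup q k (DblOrbit.emb (dblOf q k E τ')),
        decompLift q k (DblOrbit.emb (dblOf q k E τ')) d
          ((y (dblOf q k E τ') : locExt q k (DblOrbit.emb (dblOf q k E τ'))) : PadicAlgCl q) := by
    rw [← Fintype.prod_subtype_mul_prod_subtype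
      (fun σ : E ≃ₐ[k] E => σ ∈ decompGroup q k (DblOrbit.emb (dblOf q k E τ')))]
    have h4 : ∏ σ : {σ : E ≃ₐ[k] E // ¬ σ ∈ decompGroup q k (DblOrbit.emb (dblOf q k E τ'))},
        (((F (dblOf q k E τ') σ : (locField q (DblOrbit.emb (dblOf q k E τ')))ˣ) :
          locField q (DblOrbit.emb (dblOf q k E τ'))) : PadicAlgCl q) = 1 := by
      refine Finset.prod_eq_one fun σ _ => ?_
      show (((if h : (σ : E ≃ₐ[k] E) ∈ decompGroup q k (DblOrbit.emb (dblOf q k E τ')) then
          (⟨σ, h⟩ : decompGroup q k (DblOrbit.emb (dblOf q k E τ'))) • u (dblOf q k E τ')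
          else 1 : (locField q (DblOrbit.emb (dblOf q k E τ')))ˣ) :
            locField q (DblOrbit.emb (dblOf q k E τ'))) : PadicAlgCl q) = 1
      rw [dif_neg σ.2]
      rfl
    rw [h4, mul_one]
    refine Finset.prod_congr rfl fun d _ => ?_
    show (((if h : (d : E ≃ₐ[k] E) ∈ decompGroup q k (DblOrbit.emb (dblOf q k E τ')) then
        (⟨d, h⟩ : decompGroup q k (DblOrbit.emb (dblOf q k E τ'))) • u (dblOf q k E τ')
        else 1 : (locField q (DblOrbit.emb (dblOf q k E τ')))ˣ) :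
          locField q (DblOrbit.emb (dblOf q k E τ'))) : PadicAlgCl q) = _
    rw [dif_pos d.2]
    rfl
  rw [h2, h3, ← coe_algebraMap_norm_locExt q k (DblOrbit.emb (dblOf q k E τ'))
    (y (dblOf q k E τ')), hy, hgx, AlgEquiv.commutes]

end Single

section Global

attribute [local instance] factOfPrimes

theorem semiLocalUnit_apply_ne_zero {q : ℕ} [Fact q.Prime] {E : Type} [Field E]
    (u : (semiLocal q E)ˣ) (τ : E →+* PadicAlgCl q) :
    ((u : semiLocal q E) : (E →+* PadicAlgCl q) → PadicAlgCl q) τ ≠ 0 := by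
  intro h0
  have h1 : ((u : semiLocal q E) : (E →+* PadicAlgCl q) → PadicAlgCl q) τ *
      (((u⁻¹ : (semiLocal q E)ˣ) : semiLocal q E) : (E →+* PadicAlgCl q) → PadicAlgCl q) τ
      = 1 :=
    congrArg (fun f : semiLocal q E => (f : (E →+* PadicAlgCl q) → PadicAlgCl q) τ) u.mul_inv
  rw [h0, zero_mul] at h1
  exact zero_ne_one h1

/-- A positive lower bound for the values of finitely many semi-local units. -/
theorem exists_pos_le_norm_semiLocalUnit (E : Type) [Field E] [NumberField E]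
    (T : Finset Nat.Primes) (β : ∀ q : Nat.Primes, (semiLocal (q : ℕ) E)ˣ) :
    ∃ ε : ℝ, 0 < ε ∧ ∀ q ∈ T, ∀ τ : E →+* PadicAlgCl (q : ℕ),
      ε ≤ ‖((β q : semiLocal (q : ℕ) E) : (E →+* PadicAlgCl (q : ℕ)) → PadicAlgCl (q : ℕ)) τ‖ := by
  classical
  induction T using Finset.induction_on with
  | empty => exact ⟨1, one_pos, fun q hq => absurd hq (Finset.notMem_empty q)⟩
  | insert q T hq ih =>
    obtain ⟨ε, hε, hεT⟩ := ih
    have hq' : ∃ δ : ℝ, 0 < δ ∧ ∀ τ : E →+* PadicAlgCl (q : ℕ),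
        δ ≤ ‖((β q : semiLocal (q : ℕ) E) :
          (E →+* PadicAlgCl (q : ℕ)) → PadicAlgCl (q : ℕ)) τ‖ := by
      have hfin : Finite (E →+* PadicAlgCl (q : ℕ)) :=
        Finite.of_equiv (E →ₐ[ℚ] PadicAlgCl (q : ℕ))
          (RingHom.equivRatAlgHom E (PadicAlgCl (q : ℕ))).symm
      by_cases hne : Nonempty (E →+* PadicAlgCl (q : ℕ))
      · obtain ⟨τ₀, hτ₀⟩ := Finite.exists_min (fun τ : E →+* PadicAlgCl (q : ℕ) =>
          ‖((β q : semiLocal (q : ℕ) E) :
            (E →+* PadicAlgCl (q : ℕ)) → PadicAlgCl (q : ℕ)) τ‖)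
        exact ⟨_, norm_pos_iff.2 (semiLocalUnit_apply_ne_zero (β q) τ₀), hτ₀⟩
      · exact ⟨1, one_pos, fun τ => absurd ⟨τ⟩ hne⟩
    obtain ⟨δ, hδ, hδq⟩ := hq'
    refine ⟨min ε δ, lt_min hε hδ, fun q' hq' τ => ?_⟩
    rcases Finset.mem_insert.1 hq' with rfl | h
    · exact (min_le_right _ _).trans (hδq τ)
    · exact (min_le_left _ _).trans (hεT q' h τ)

/-- **C8 sub-leaf R3b (weak approximation for norms).**  `E / k` a finite Galois extension of
number fields, `T` a finite set of primes, `a ∈ kˣ` a norm from the completion `E_w` at every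
embedding of `E` into `PadicAlgCl q`, `q ∈ T`.  Then there is `b ∈ Eˣ` such that
`a / N_{E/k}(b)` is a one-unit at every embedding `k →+* PadicAlgCl q`, `q ∈ T`. -/
theorem exists_norm_oneUnit (k E : Type) [Field k] [Field E] [NumberField k] [NumberField E]
    [Algebra k E] [IsGalois k E] (T : Finset Nat.Primes) (a : kˣ)
    (hloc : ∀ q ∈ T, ∀ τ' : E →+* PadicAlgCl (q : ℕ), ∃ y : locExt (q : ℕ) k τ',
      ((algebraMap (locBase (q : ℕ) k τ') (locExt (q : ℕ) k τ')
        (Algebra.norm (locBase (q : ℕ) k τ') y) : locExt (q : ℕ) k τ') : PadicAlgCl (q : ℕ))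
        = τ' (algebraMap k E (a : k))) :
    ∃ b : Eˣ, ∀ q ∈ T, ∀ τ : k →+* PadicAlgCl (q : ℕ),
      ‖τ ((a : k) / Algebra.norm k (b : E)) - 1‖ < 1 := by
  classical
  have hβ : ∀ q : Nat.Primes, ∃ β : (semiLocal (q : ℕ) E)ˣ, q ∈ T →
      ∀ τ' : E →+* PadicAlgCl (q : ℕ),
        ∏ σ : E ≃ₐ[k] E, ((β : semiLocal (q : ℕ) E) :
          (E →+* PadicAlgCl (q : ℕ)) → PadicAlgCl (q : ℕ)) (τ'.comp ((σ : E ≃+* E) : E →+* E))
          = τ' (algebraMap k E (a : k)) := by
    intro q
    by_cases hq : q ∈ T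
    · obtain ⟨β, hβ⟩ := exists_semiLocalUnit_norm (q : ℕ) k E (a : k) a.ne_zero (hloc q hq)
      exact ⟨β, fun _ => hβ⟩
    · exact ⟨1, fun h => absurd h hq⟩
  choose β hβ using hβ
  obtain ⟨ε, hε, hεβ⟩ := exists_pos_le_norm_semiLocalUnit E T β
  obtain ⟨x, hx⟩ := H10.semiLocalDense_finset E T (fun q => (β q : semiLocal (q : ℕ) E)) hε
  have key : ∀ q ∈ T, ∀ τ' : E →+* PadicAlgCl (q : ℕ), x ≠ 0 ∧
      ‖τ' (algebraMap k E (Algebra.norm k x)) / τ' (algebraMap k E (a : k)) - 1‖ < 1 := by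
    intro q hq τ'
    constructor
    · intro h0
      have h1 := hx q hq τ'
      rw [h0, map_zero, sub_zero] at h1
      exact lt_irrefl _ (h1.trans_le (hεβ q hq τ'))
    · rw [Algebra.norm_eq_prod_automorphisms, map_prod, ← hβ q hq τ', ← Finset.prod_div_distrib]
      refine norm_prod_sub_one_lt _ _ fun σ _ => ?_
      have h1 := hx q hq (τ'.comp ((σ : E ≃+* E) : E →+* E))
      have h2 := hεβ q hq (τ'.comp ((σ : E ≃+* E) : E →+* E))
      have h0 := semiLocalUnit_apply_ne_zero (β q) (τ'.comp ((σ : E ≃+* E) : E →+* E))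
      have h3 : τ' (σ x) / ((β q : semiLocal (q : ℕ) E) :
          (E →+* PadicAlgCl (q : ℕ)) → PadicAlgCl (q : ℕ)) (τ'.comp ((σ : E ≃+* E) : E →+* E)) - 1
          = (τ' (σ x) - ((β q : semiLocal (q : ℕ) E) :
            (E →+* PadicAlgCl (q : ℕ)) → PadicAlgCl (q : ℕ))
              (τ'.comp ((σ : E ≃+* E) : E →+* E))) /
            ((β q : semiLocal (q : ℕ) E) :
              (E →+* PadicAlgCl (q : ℕ)) → PadicAlgCl (q : ℕ))
                (τ'.comp ((σ : E ≃+* E) : E →+* E)) := by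
        field_simp
      rw [h3, norm_div, div_lt_one (norm_pos_iff.2 h0), norm_sub_rev]
      exact h1.trans_le h2
  by_cases hx0 : x = 0
  · refine ⟨1, fun q hq τ => ?_⟩
    obtain ⟨τ', -⟩ := exists_extend (q : ℕ) (K := E) τ
    exact absurd hx0 (key q hq τ').1
  · refine ⟨Units.mk0 x hx0, fun q hq τ => ?_⟩
    obtain ⟨τ', rfl⟩ := exists_extend (q : ℕ) (K := E) τ
    have h2 := norm_inv_sub_one_lt (key q hq τ').2
    have h3 : (τ'.comp (algebraMap k E)) ((a : k) / Algebra.norm k ((Units.mk0 x hx0 : Eˣ) : E))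
        = (τ' (algebraMap k E (Algebra.norm k x)) / τ' (algebraMap k E (a : k)))⁻¹ := by
      rw [inv_div, ← map_div₀, ← map_div₀]
      rfl
    rw [h3]
    exact h2

end Global

end Fermat.Agent.S55.H31
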