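/-
Program C (S55), package C5 (semi-local / idele modules), abstract core for the leaves
D1 / D2 / D4: SHAPIRO INJECTIVITY in degrees 1 and 2, at the level of cocycles.  Mathlib only.

Setting: a group `G`, a `G`-module `A`, a family of subgroups `D i ≤ G` with `D i`-modules
`B i` and `D i`-equivariant maps `e i : A → B i` such that
`a ↦ (x ↦ e i (x • a))` identifies `A` with the product of the coinduced modules
`Coind_{D i}^G (B i)`; this is expressed by the two hypotheses

* `hsep`  : `(∀ i x, e i (x • a) = 0) → a = 0`;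
* `hglue` : every family `f i : G → B i` with `f i (d * x) = d • f i x` is of the form
  `f i x = e i (x • a)`.

Then a 1-cocycle (2-cocycle) of `G` in `A` whose images in all `B i` are coboundaries on `D i`
is a coboundary (`shapiro_core₁`, `shapiro_core₂`).  No finiteness, no normality.

The `Rep`-versions `shapiro_inj_H1`, `shapiro_inj_H2` state the same for Mathlib's group
cohomology: a class of `Hⁿ(G, A)` (`n = 1, 2`) all of whose images under
`groupCohomology.map (D i).subtype (e i) n` vanish is zero.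
-/
import Mathlib

set_option autoImplicit false

namespace Fermat.Agent.S55.H31

section Core

variable {G : Type*} [Group G] {A : Type*} [AddCommGroup A] [DistribMulAction G A]
  {I : Type*} (D : I → Subgroup G) {B : I → Type*} [∀ i, AddCommGroup (B i)]
  [∀ i, DistribMulAction (D i) (B i)] (e : ∀ i, A →+ B i)

include D e in
/-- **Shapiro injectivity, degree 1** (cocycle form). -/
theorem shapiro_core₁
    (he : ∀ i (d : D i) (a : A), e i ((d : G) • a) = d • e i a)
    (hsep : ∀ a : A, (∀ i (x : G), e i (x • a) = 0) → a = 0)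
    (hglue : ∀ f : ∀ i, G → B i, (∀ i (d : D i) (x : G), f i ((d : G) * x) = d • f i x) →
      ∃ a : A, ∀ i x, e i (x • a) = f i x)
    (c : G → A) (hc : ∀ g h, c (g * h) = g • c h + c g)
    (hloc : ∀ i, ∃ b : B i, ∀ d : D i, d • b - b = e i (c d)) :
    ∃ a : A, ∀ g, g • a - a = c g := by
  choose b hb using hloc
  obtain ⟨a, ha⟩ := hglue (fun i x => e i (c x) + b i) (by
    intro i d x
    rw [hc, map_add, he, smul_add, ← hb i d]
    abel)
  refine ⟨a, fun g => ?_⟩
  rw [← sub_eq_zero]
  apply hsep
  intro i x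
  rw [smul_sub, smul_sub, map_sub, map_sub, ← mul_smul, ha, ha]
  have h1 : e i (x • c g) = e i (c (x * g)) - e i (c x) := by
    rw [hc x g, map_add]; abel
  rw [h1]
  abel

/-- Right coset representatives: `r x ∈ D x`, constant on right cosets. -/
theorem exists_rightCoset_rep (H : Subgroup G) :
    ∃ r : G → G, (∀ x, x * (r x)⁻¹ ∈ H) ∧ ∀ d ∈ H, ∀ x, r (d * x) = r x := by
  classical
  refine ⟨fun x => (Quotient.mk (QuotientGroup.rightRel H) x).out, fun x => ?_, fun d hd x => ?_⟩
  · have h1 : (QuotientGroup.rightRel H).r (Quotient.mk (QuotientGroup.rightRel H) x).out x :=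
      Quotient.exact (Quotient.out_eq _)
    exact QuotientGroup.rightRel_apply.mp h1
  · have h1 : Quotient.mk (QuotientGroup.rightRel H) (d * x)
        = Quotient.mk (QuotientGroup.rightRel H) x := by
      apply Quotient.sound
      apply QuotientGroup.rightRel_apply.mpr
      have : x * (d * x)⁻¹ = d⁻¹ := by group
      rw [this]
      exact H.inv_mem hd
    show (Quotient.mk (QuotientGroup.rightRel H) (d * x)).out = _
    rw [h1]

include D e in
/-- **Shapiro injectivity, degree 2** (cocycle form). -/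
theorem shapiro_core₂
    (he : ∀ i (d : D i) (a : A), e i ((d : G) • a) = d • e i a)
    (hsep : ∀ a : A, (∀ i (x : G), e i (x • a) = 0) → a = 0)
    (hglue : ∀ f : ∀ i, G → B i, (∀ i (d : D i) (x : G), f i ((d : G) * x) = d • f i x) →
      ∃ a : A, ∀ i x, e i (x • a) = f i x)
    (c : G → G → A) (hc : ∀ g h k, c (g * h) k + c g h = g • c h k + c g (h * k))
    (hloc : ∀ i, ∃ β : D i → B i, ∀ d d' : D i,
      d • β d' - β (d * d') + β d = e i (c (d : G) (d' : G))) :
    ∃ α : G → A, ∀ g h, g • α h - α (g * h) + α g = c g h := by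
  choose β hβ using hloc
  choose r hr1 hr2 using fun i => exists_rightCoset_rep (D i)
  -- the `D i`-component of `x`
  let δ : ∀ i, G → D i := fun i x => ⟨x * (r i x)⁻¹, hr1 i x⟩
  have hδ : ∀ i (d : D i) (x : G), δ i ((d : G) * x) = d * δ i x := by
    intro i d x
    apply Subtype.ext
    show (d : G) * x * (r i ((d : G) * x))⁻¹ = (d : G) * (x * (r i x)⁻¹)
    rw [hr2 i d d.2 x, mul_assoc]
  have hδr : ∀ i (x : G), ((δ i x : D i) : G) * r i x = x := by
    intro i x
    show x * (r i x)⁻¹ * r i x = x
    rw [inv_mul_cancel_right]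
  -- `φ i d x = e i (c d x)`
  have hφ : ∀ i (d d' : D i) (x : G),
      e i (c ((d : G) * (d' : G)) x) =
        d • e i (c (d' : G) x) + e i (c (d : G) ((d' : G) * x)) - e i (c (d : G) (d' : G)) := by
    intro i d d' x
    have h := congrArg (e i) (hc (d : G) (d' : G) x)
    rw [map_add, map_add, he] at h
    rw [← h]; abel
  -- the correction term
  obtain ⟨u, hu⟩ : ∃ u : ∀ i, G → B i, ∀ i (d : D i) (x : G),
      u i ((d : G) * x) = d • u i x + e i (c (d : G) x) - β i d := by
    refine ⟨fun i x => e i (c ((δ i x : D i) : G) (r i x)) - β i (δ i x), ?_⟩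
    intro i d x
    show e i (c ((δ i ((d : G) * x) : D i) : G) (r i ((d : G) * x))) - β i (δ i ((d : G) * x))
      = d • (e i (c ((δ i x : D i) : G) (r i x)) - β i (δ i x)) + e i (c (d : G) x) - β i d
    rw [hδ i d x, hr2 i d d.2 x]
    have h1 := hφ i d (δ i x) (r i x)
    rw [hδr i x] at h1
    have h2 := hβ i d (δ i x)
    have h3 : ((d * δ i x : D i) : G) = (d : G) * ((δ i x : D i) : G) := rfl
    rw [h3, h1, smul_sub, ← h2]
    abel
  -- the families to glue
  have hfam : ∀ g : G, ∃ a : A, ∀ i x, e i (x • a) = e i (c x g) - u i (x * g) + u i x := by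
    intro g
    refine hglue (fun i x => e i (c x g) - u i (x * g) + u i x) ?_
    intro i d x
    show e i (c ((d : G) * x) g) - u i ((d : G) * x * g) + u i ((d : G) * x)
      = d • (e i (c x g) - u i (x * g) + u i x)
    have h1 : e i (c ((d : G) * x) g) =
        d • e i (c x g) + e i (c (d : G) (x * g)) - e i (c (d : G) x) := by
      have h := congrArg (e i) (hc (d : G) x g)
      rw [map_add, map_add, he] at h
      rw [← h]; abel
    rw [h1, mul_assoc, hu i d (x * g), hu i d x, smul_add, smul_sub]
    abel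
  choose α hα using hfam
  refine ⟨α, fun g g' => ?_⟩
  rw [← sub_eq_zero]
  apply hsep
  intro i x
  rw [smul_sub, smul_add, smul_sub, map_sub, map_add, map_sub, ← mul_smul, hα, hα, hα]
  have h1 : e i (x • c g g') = e i (c (x * g) g') + e i (c x g) - e i (c x (g * g')) := by
    have h := congrArg (e i) (hc x g g')
    rw [map_add, map_add] at h
    rw [eq_sub_iff_add_eq]
    exact h.symm
  rw [h1, mul_assoc]
  abel

end Core

section RepForm

open groupCohomology CategoryTheory

/-- The action of `G` on the underlying group of a representation (a local instance). -/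
@[reducible] def repAct {k G : Type} [CommRing k] [Group G] (A : Rep.{0, 0, 0} k G) :
    DistribMulAction G A where
  smul g a := A.ρ g a
  one_smul a := by show A.ρ 1 a = a; rw [map_one]; rfl
  mul_smul g h a := by show A.ρ (g * h) a = A.ρ g (A.ρ h a); rw [map_mul]; rfl
  smul_zero g := map_zero _
  smul_add g a b := map_add _ _ _

variable {k G : Type} [CommRing k] [Group G] (A : Rep.{0, 0, 0} k G) {I : Type*}
  (D : I → Subgroup G) (B : ∀ i, Rep.{0, 0, 0} k (D i))
  (e : ∀ i, Rep.res (D i).subtype A ⟶ B i)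

/-- The underlying additive map of `e i`. -/
def repHomAdd (i : I) : A →+ B i where
  toFun a := (e i).hom a
  map_zero' := map_zero _
  map_add' := map_add _

/-- **Shapiro injectivity, degree 1**, for Mathlib's cocycles: a 1-cocycle of `G` in `A` whose
images in the `B i` are coboundaries of the `D i` is a coboundary. -/
theorem shapiro_cocycle₁
    (hsep : ∀ a : A, (∀ i (x : G), (e i).hom (A.ρ x a) = 0) → a = 0)
    (hglue : ∀ f : ∀ i, G → B i,
      (∀ i (d : D i) (x : G), f i ((d : G) * x) = (B i).ρ d (f i x)) →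
      ∃ a : A, ∀ i x, (e i).hom (A.ρ x a) = f i x)
    (c : G → A) (hc : c ∈ cocycles₁ A)
    (hloc : ∀ i, (fun d : D i => (e i).hom (c (d : G))) ∈ coboundaries₁ (B i)) :
    c ∈ coboundaries₁ A := by
  let _ : DistribMulAction G A := repAct A
  let _ : ∀ i, DistribMulAction (D i) (B i) := fun i => repAct (B i)
  have hc' := (mem_cocycles₁_iff c).1 hc
  obtain ⟨a, ha⟩ := shapiro_core₁ D (fun i => repHomAdd A D B e i)
    (fun i d a => Rep.hom_comm_apply (e i) d a) hsep hglue c hc' (by
      intro i
      obtain ⟨b, hb⟩ := hloc i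
      exact ⟨b, fun d => congrFun hb d⟩)
  exact ⟨a, funext ha⟩

/-- **Shapiro injectivity, degree 2**, for Mathlib's cocycles. -/
theorem shapiro_cocycle₂
    (hsep : ∀ a : A, (∀ i (x : G), (e i).hom (A.ρ x a) = 0) → a = 0)
    (hglue : ∀ f : ∀ i, G → B i,
      (∀ i (d : D i) (x : G), f i ((d : G) * x) = (B i).ρ d (f i x)) →
      ∃ a : A, ∀ i x, (e i).hom (A.ρ x a) = f i x)
    (c : G × G → A) (hc : c ∈ cocycles₂ A)
    (hloc : ∀ i, (fun d : D i × D i => (e i).hom (c ((d.1 : G), (d.2 : G))))
      ∈ coboundaries₂ (B i)) :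
    c ∈ coboundaries₂ A := by
  let _ : DistribMulAction G A := repAct A
  let _ : ∀ i, DistribMulAction (D i) (B i) := fun i => repAct (B i)
  have hc' := (mem_cocycles₂_iff c).1 hc
  obtain ⟨α, hα⟩ := shapiro_core₂ D (fun i => repHomAdd A D B e i)
    (fun i d a => Rep.hom_comm_apply (e i) d a) hsep hglue (fun g h => c (g, h)) hc' (by
      intro i
      obtain ⟨β, hβ⟩ := hloc i
      exact ⟨β, fun d d' => congrFun hβ (d, d')⟩)
  exact ⟨α, funext fun x => hα x.1 x.2⟩

/-- **Shapiro injectivity on `H¹`**: a class of `H¹(G, A)` all of whose images in the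
`H¹(D i, B i)` vanish is zero. -/
theorem shapiro_inj_H1
    (hsep : ∀ a : A, (∀ i (x : G), (e i).hom (A.ρ x a) = 0) → a = 0)
    (hglue : ∀ f : ∀ i, G → B i,
      (∀ i (d : D i) (x : G), f i ((d : G) * x) = (B i).ρ d (f i x)) →
      ∃ a : A, ∀ i x, (e i).hom (A.ρ x a) = f i x)
    (x : groupCohomology A 1)
    (hx : ∀ i, (groupCohomology.map (D i).subtype (e i) 1).hom x = 0) : x = 0 := by
  induction x using H1_induction_on with
  | h c =>
    rw [H1π_eq_zero_iff]
    refine shapiro_cocycle₁ A D B e hsep hglue c c.2 fun i => ?_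
    have h1 := hx i
    rw [H1π_comp_map_apply, H1π_eq_zero_iff] at h1
    exact h1

/-- **Shapiro injectivity on `H²`**: a class of `H²(G, A)` all of whose images in the
`H²(D i, B i)` vanish is zero. -/
theorem shapiro_inj_H2
    (hsep : ∀ a : A, (∀ i (x : G), (e i).hom (A.ρ x a) = 0) → a = 0)
    (hglue : ∀ f : ∀ i, G → B i,
      (∀ i (d : D i) (x : G), f i ((d : G) * x) = (B i).ρ d (f i x)) →
      ∃ a : A, ∀ i x, (e i).hom (A.ρ x a) = f i x)
    (x : groupCohomology A 2)
    (hx : ∀ i, (groupCohomology.map (D i).subtype (e i) 2).hom x = 0) : x = 0 := by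
  induction x using H2_induction_on with
  | h c =>
    rw [H2π_eq_zero_iff]
    refine shapiro_cocycle₂ A D B e hsep hglue c c.2 fun i => ?_
    have h1 := hx i
    rw [H2π_comp_map_apply, H2π_eq_zero_iff] at h1
    exact h1

/-- If all `Hⁿ(D i, B i)` vanish (`n = 1, 2`), so does `Hⁿ(G, A)`. -/
theorem shapiro_isZero
    (hsep : ∀ a : A, (∀ i (x : G), (e i).hom (A.ρ x a) = 0) → a = 0)
    (hglue : ∀ f : ∀ i, G → B i,
      (∀ i (d : D i) (x : G), f i ((d : G) * x) = (B i).ρ d (f i x)) →
      ∃ a : A, ∀ i x, (e i).hom (A.ρ x a) = f i x)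
    (n : ℕ) (hn : n = 1 ∨ n = 2)
    (hB : ∀ i, Limits.IsZero (groupCohomology (B i) n)) :
    Limits.IsZero (groupCohomology A n) := by
  rw [ModuleCat.isZero_iff_subsingleton]
  refine ⟨fun x y => ?_⟩
  have key : ∀ z : groupCohomology A n, z = 0 := by
    intro z
    rcases hn with rfl | rfl
    · exact shapiro_inj_H1 A D B e hsep hglue z fun i =>
        (ModuleCat.isZero_iff_subsingleton.1 (hB i)).elim _ _
    · exact shapiro_inj_H2 A D B e hsep hglue z fun i =>
        (ModuleCat.isZero_iff_subsingleton.1 (hB i)).elim _ _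
  rw [key x, key y]

end RepForm

end Fermat.Agent.S55.H31
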