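/-
S55, package C8, leaf (R-WA) of helper6's `RecCycloSpec` — helper31.

`H6.WeakApproxNormStatement` verbatim, as a repackaging of `H31.exists_norm_oneUnit`
(`NormApprox.lean`): the finite set of primes is the set of prime divisors of `m`.
-/
import Fermat.Agent.S55.H31.NormApprox
import Fermat.Agent.S55.H6.RecCycloSpec

set_option autoImplicit false

noncomputable section

namespace Fermat.Agent.S55.H31

open Fermat.Agent.S55.H88 Fermat.Agent.S55.H66

attribute [local instance] factOfPrimes

/-- **(R-WA)** `H6.WeakApproxNormStatement`: an element of `kˣ` which is a local norm at every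
embedding above the primes dividing `m` becomes a one-unit at all those embeddings after division
by a global norm. -/
theorem weakApproxNormStatement : H6.WeakApproxNormStatement := by
  intro k E _ _ _ _ _ _ m hm a₀ hloc
  classical
  let T : Finset Nat.Primes := (Nat.primeFactors m).attach.image
    (fun x => (⟨x.1, Nat.prime_of_mem_primeFactors x.2⟩ : Nat.Primes))
  have hT : ∀ q : Nat.Primes, q ∈ T ↔ (q : ℕ) ∣ m := by
    intro q
    constructor
    · intro h
      obtain ⟨x, -, rfl⟩ := Finset.mem_image.1 h
      exact Nat.dvd_of_mem_primeFactors x.2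
    · intro h
      exact Finset.mem_image.2 ⟨⟨(q : ℕ), Nat.mem_primeFactors.2 ⟨q.2, h, hm⟩⟩,
        Finset.mem_attach _ _, rfl⟩
  obtain ⟨b, hb⟩ := exists_norm_oneUnit k E T a₀ (fun q hq τ' => by
    obtain ⟨β, hβ⟩ := @hloc (q : ℕ) (factOfPrimes q) ((hT q).1 hq) τ'
    refine ⟨β, ?_⟩
    rw [hβ]
    rfl)
  refine ⟨b, fun q hq hqm τ => ?_⟩
  exact hb ⟨q, hq.out⟩ ((hT _).2 hqm) τ

end Fermat.Agent.S55.H31
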